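/-
S31 project (route docs `ROUTE_S31_helper77`), block S31-P3, J-SIDE of the abstract Step A
(helper19, prefix `sa19_`).  Mathlib + `S42x/QuadPow` only.

* `sa19_dk a e j`      : Dickson sequence `D₀ = 2, D₁ = a, D_{j+2} = a D_{j+1} - e D_j` in an ARBITRARY
                         (noncommutative) ring, `e : ℤ`;  `sa19_dk_map`, `sa19_dk_eq_qpw`.
* `sa19_pow_rel`       : `s² - a s + e = 0`, `s a = a s`  ⟹  `(s^j)² - D_j(a,e) s^j + e^j = 0`.
* `sa19_aeval_dickson` : `aeval a (qpw_dickson X (C e) j) = sa19_dk a e j` (bridge to the Dickson polynomial).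
* `sa19_kill_ring`     : (A5) in a ring.
* `sa19_kill_end`      : (A5) on the `m`-torsion (predicate `m • x = 0`) of an abelian group, `End_ℤ J` form.
* `sa19_kill`          : (A5), group-action form (`[DistribMulAction G J]`, `Nat.ModEq`).
* `sa19_lattice`       : (A6) pull back along `ι : L →+ J`.
* `sa19_lattice_kill_end`, `sa19_lattice_kill` : (A5) + (A6).
-/
import Mathlib
import Fermat.Agent.S42x.QuadPow

set_option autoImplicit false

namespace Fermat.Agent.S31x

open Fermat.Agent.S42x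

section Ring

variable {R : Type*} [Ring R]

/-- Dickson sequence in an arbitrary ring, integer "determinant" `e`. -/
def sa19_dk (a : R) (e : ℤ) : ℕ → R
  | 0 => 2
  | 1 => a
  | (j + 2) => a * sa19_dk a e (j + 1) - (e : R) * sa19_dk a e j

@[simp] theorem sa19_dk_zero (a : R) (e : ℤ) : sa19_dk a e 0 = 2 := rfl

@[simp] theorem sa19_dk_one (a : R) (e : ℤ) : sa19_dk a e 1 = a := rfl

theorem sa19_dk_succ_succ (a : R) (e : ℤ) (j : ℕ) :
    sa19_dk a e (j + 2) = a * sa19_dk a e (j + 1) - (e : R) * sa19_dk a e j := rfl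

/-- compatibility with ring homomorphisms. -/
theorem sa19_dk_map {R' : Type*} [Ring R'] (f : R →+* R') (a : R) (e : ℤ) (j : ℕ) :
    f (sa19_dk a e j) = sa19_dk (f a) e j := by
  induction j using Nat.strong_induction_on with
  | _ j ih =>
    match j with
    | 0 => rw [sa19_dk_zero, sa19_dk_zero, map_ofNat]
    | 1 => simp
    | (j + 2) =>
      rw [sa19_dk_succ_succ, sa19_dk_succ_succ, map_sub, map_mul, map_mul, map_intCast,
        ih (j + 1) (by omega), ih j (by omega)]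

/-- in a commutative ring this is the `qpw_dickson` sequence. -/
theorem sa19_dk_eq_qpw {K : Type*} [CommRing K] (a : K) (e : ℤ) (j : ℕ) :
    sa19_dk a e j = qpw_dickson a (e : K) j := by
  induction j using Nat.strong_induction_on with
  | _ j ih =>
    match j with
    | 0 => simp
    | 1 => simp
    | (j + 2) =>
      rw [sa19_dk_succ_succ, qpw_dickson_succ_succ, ih (j + 1) (by omega), ih j (by omega)]

theorem sa19_dk_commute {s a : R} (h : Commute s a) (e : ℤ) (j : ℕ) :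
    Commute s (sa19_dk a e j) := by
  induction j using Nat.strong_induction_on with
  | _ j ih =>
    match j with
    | 0 =>
      rw [sa19_dk_zero]
      exact (Nat.cast_commute 2 s).symm
    | 1 => simpa using h
    | (j + 2) =>
      rw [sa19_dk_succ_succ]
      exact (h.mul_right (ih (j + 1) (by omega))).sub_right
        ((Int.cast_commute e s).symm.mul_right (ih j (by omega)))

/-- `s^j + t^j = D_j(a, e)` for commuting `s, t` with `s + t = a`, `s t = e`. -/
theorem sa19_pow_add_pow (s t a : R) (e : ℤ) (hadd : s + t = a)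
    (hmul : s * t = (e : R)) (hcomm : Commute s t) (j : ℕ) :
    s ^ j + t ^ j = sa19_dk a e j := by
  induction j using Nat.strong_induction_on with
  | _ j ih =>
    match j with
    | 0 =>
      rw [pow_zero, pow_zero, sa19_dk_zero]
      norm_num
    | 1 => simpa using hadd
    | (j + 2) =>
      have h1 := ih (j + 1) (by omega)
      have h0 := ih j (by omega)
      rw [sa19_dk_succ_succ, ← h1, ← h0, ← hadd, ← hmul]
      have hts : t * s = s * t := hcomm.eq.symm
      have e1 : s * t * (s ^ j + t ^ j) = s ^ (j + 1) * t + s * t ^ (j + 1) := by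
        rw [mul_add, pow_succ' s j, pow_succ' t j]
        have : s * t * s ^ j = s * s ^ j * t := by
          rw [mul_assoc, (hcomm.symm.pow_right j).eq, ← mul_assoc]
        rw [this, mul_assoc s t (t ^ j)]
      have e2 : (s + t) * (s ^ (j + 1) + t ^ (j + 1)) =
          s ^ (j + 2) + t ^ (j + 2) + (s ^ (j + 1) * t + s * t ^ (j + 1)) := by
        have h3 : t * s ^ (j + 1) = s ^ (j + 1) * t := (hcomm.symm.pow_right (j + 1)).eq
        rw [add_mul, mul_add, mul_add, h3, ← pow_succ' s (j + 1), ← pow_succ' t (j + 1)]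
        abel
      rw [e2, e1]
      abel

/-- **Power step in an arbitrary ring**: `s² - a s + e = 0`, `s a = a s`
⟹ `(s^j)² - D_j(a,e) s^j + e^j = 0`. -/
theorem sa19_pow_rel (s a : R) (e : ℤ) (hsa : Commute s a)
    (h : s * s - a * s + (e : R) = 0) (j : ℕ) :
    s ^ j * s ^ j - sa19_dk a e j * s ^ j + ((e ^ j : ℤ) : R) = 0 := by
  set t : R := a - s with ht
  have hadd : s + t = a := by rw [ht]; abel
  have hmul : s * t = (e : R) := by
    rw [ht, mul_sub, hsa.eq]
    have h3 : (e : R) = -(s * s - a * s) := eq_neg_of_add_eq_zero_right h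
    rw [h3]; abel
  have hcomm : Commute s t := by
    show s * t = t * s
    rw [ht, mul_sub, sub_mul, hsa.eq]
  have hD := sa19_pow_add_pow s t a e hadd hmul hcomm j
  have hst : s ^ j * t ^ j = ((e ^ j : ℤ) : R) := by
    rw [← hcomm.mul_pow, hmul, Int.cast_pow]
  have htj : t ^ j * s ^ j = s ^ j * t ^ j := ((hcomm.symm.pow_left j).pow_right j).eq
  rw [← hD, add_mul, htj, hst]
  abel

/-- **(A5) in a ring**: two quadratic relations whose `j`-th / `j'`-th powers agree with a right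
cancellable `ψ`, with congruent constant terms, force the two Dickson values to coincide. -/
theorem sa19_kill_ring (ψ s s' a a' : R) (e e' : ℤ) (j j' : ℕ)
    (hψ : ∀ r : R, r * ψ = 0 → r = 0)
    (hsa : Commute s a) (hsa' : Commute s' a')
    (h : s * s - a * s + (e : R) = 0) (h' : s' * s' - a' * s' + (e' : R) = 0)
    (hj : ψ = s ^ j) (hj' : ψ = s' ^ j')
    (he : ((e ^ j : ℤ) : R) = ((e' ^ j' : ℤ) : R)) :
    sa19_dk a e j = sa19_dk a' e' j' := by
  have h1 := sa19_pow_rel s a e hsa h j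
  have h2 := sa19_pow_rel s' a' e' hsa' h' j'
  rw [← hj] at h1
  rw [← hj', ← he] at h2
  have h3 : (sa19_dk a e j - sa19_dk a' e' j') * ψ = 0 := by
    rw [sub_mul]
    have := congrArg₂ (· - ·) h2 h1
    simp only [sub_self] at this
    rw [← this]
    abel
  exact sub_eq_zero.mp (hψ _ h3)

/-- the same with an invertible `ψ`. -/
theorem sa19_kill_ring_unit (ψ ψ' s s' a a' : R) (e e' : ℤ) (j j' : ℕ)
    (hψ : ψ * ψ' = 1)
    (hsa : Commute s a) (hsa' : Commute s' a')
    (h : s * s - a * s + (e : R) = 0) (h' : s' * s' - a' * s' + (e' : R) = 0)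
    (hj : ψ = s ^ j) (hj' : ψ = s' ^ j')
    (he : ((e ^ j : ℤ) : R) = ((e' ^ j' : ℤ) : R)) :
    sa19_dk a e j = sa19_dk a' e' j' := by
  refine sa19_kill_ring ψ s s' a a' e e' j j' (fun r hr => ?_) hsa hsa' h h' hj hj' he
  have h4 := congrArg (· * ψ') hr
  simpa only [mul_assoc, hψ, mul_one, zero_mul] using h4

end Ring

section Bridge

open Polynomial

variable {R : Type*} [Ring R]

/-- **bridge to the one-variable Dickson polynomial** `qpw_dickson X (C e) j : ℤ[X]` (helper76's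
`s31i76_D e j`): its value at `a` in any ring is `sa19_dk a e j`. -/
theorem sa19_aeval_dickson (a : R) (e : ℤ) (j : ℕ) :
    Polynomial.aeval a (qpw_dickson (X : ℤ[X]) (C e) j) = sa19_dk a e j := by
  have h1 : qpw_dickson (X : ℤ[X]) (C e) j = sa19_dk (X : ℤ[X]) e j := by
    rw [sa19_dk_eq_qpw]
    congr 1
  rw [h1]
  have h2 := sa19_dk_map ((Polynomial.aeval a : ℤ[X] →ₐ[ℤ] R) : ℤ[X] →+* R) (X : ℤ[X]) e j
  simpa using h2

/-- the value of the Dickson polynomial in a commutative ring. -/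
theorem sa19_aeval_dickson_comm {K : Type*} [CommRing K] (a : K) (e : ℤ) (j : ℕ) :
    Polynomial.aeval a (qpw_dickson (X : ℤ[X]) (C e) j) = qpw_dickson a (e : K) j := by
  rw [sa19_aeval_dickson, sa19_dk_eq_qpw]

end Bridge

section Module

variable {J : Type*} [AddCommGroup J]

/-- restriction of `ℤ`-linear endomorphisms to the `M`-torsion, as a ring homomorphism. -/
def sa19_res (J : Type*) [AddCommGroup J] (M : ℕ) :
    Module.End ℤ J →+* Module.End ℤ (Submodule.torsionBy ℤ J (M : ℤ)) where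
  toFun f := f.restrict (p := Submodule.torsionBy ℤ J (M : ℤ))
    (q := Submodule.torsionBy ℤ J (M : ℤ)) (fun x hx => by
      rw [Submodule.mem_torsionBy_iff] at hx ⊢
      rw [← map_smul, hx, map_zero])
  map_one' := by ext x; rfl
  map_mul' f g := by ext x; rfl
  map_zero' := by ext x; rfl
  map_add' f g := by ext x; rfl

theorem sa19_res_apply (M : ℕ) (f : Module.End ℤ J) (x : Submodule.torsionBy ℤ J (M : ℤ)) :
    ((sa19_res J M f x : Submodule.torsionBy ℤ J (M : ℤ)) : J) = f (x : J) := rfl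

theorem sa19_mem_tors (M : ℕ) (x : J) :
    x ∈ Submodule.torsionBy ℤ J (M : ℤ) ↔ M • x = 0 := by
  rw [Submodule.mem_torsionBy_iff, natCast_zsmul]

/-- two endomorphisms agreeing on `M`-torsion have equal restrictions. -/
theorem sa19_res_eq (M : ℕ) (f g : Module.End ℤ J)
    (h : ∀ x : J, M • x = 0 → f x = g x) : sa19_res J M f = sa19_res J M g := by
  ext x
  rw [sa19_res_apply, sa19_res_apply]
  exact h x ((sa19_mem_tors M (x : J)).mp x.2)

theorem sa19_res_natCast (M : ℕ) :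
    ((M : ℤ) : Module.End ℤ (Submodule.torsionBy ℤ J (M : ℤ))) = 0 := by
  ext x
  rw [Module.End.intCast_apply, LinearMap.zero_apply, Submodule.coe_smul, ZeroMemClass.coe_zero]
  exact (Submodule.mem_torsionBy_iff _ _).mp x.2

/-- **(A5)** on the `m`-torsion of an abelian group `J` (predicate `m • x = 0` on the ambient group):
`φ, φ', TJ, TJ' : End_ℤ J`, Frobenius-type quadratic relations for `(φ, TJ, ℓ)` and `(φ', TJ', ℓ')` on
`J[m]`, `φ ^ j = φ' ^ j'` on `J[m]`, `φ ^ j` surjective on `J[m]`, and `m ∣ ℓ ^ j - ℓ' ^ j'`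
force `D_j(TJ, ℓ) = D_j'(TJ', ℓ')` on `J[m]`. -/
theorem sa19_kill_end (m : ℕ) (φ φ' TJ TJ' : Module.End ℤ J) (ℓ ℓ' : ℤ) (j j' : ℕ)
    (hcomm : ∀ x : J, m • x = 0 → TJ (φ x) = φ (TJ x))
    (hcomm' : ∀ x : J, m • x = 0 → TJ' (φ' x) = φ' (TJ' x))
    (hquad : ∀ x : J, m • x = 0 → φ (φ x) - φ (TJ x) + ℓ • x = 0)
    (hquad' : ∀ x : J, m • x = 0 → φ' (φ' x) - φ' (TJ' x) + ℓ' • x = 0)
    (hsame : ∀ x : J, m • x = 0 → (φ ^ j) x = (φ' ^ j') x)
    (hsurj : ∀ y : J, m • y = 0 → ∃ x : J, m • x = 0 ∧ (φ ^ j) x = y)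
    (hmod : (m : ℤ) ∣ ℓ ^ j - ℓ' ^ j') (x : J) (hx : m • x = 0) :
    (sa19_dk TJ ℓ j - sa19_dk TJ' ℓ' j') x = 0 := by
  set res := sa19_res J m with hres
  have key : sa19_dk (res TJ) ℓ j = sa19_dk (res TJ') ℓ' j' := by
    refine sa19_kill_ring (res (φ ^ j)) (res φ) (res φ') (res TJ) (res TJ') ℓ ℓ' j j'
      ?_ ?_ ?_ ?_ ?_ ?_ ?_ ?_
    · intro r hr
      ext y
      obtain ⟨x, hx, hxy⟩ := hsurj (y : J) ((sa19_mem_tors m (y : J)).mp y.2)
      have hy : y = res (φ ^ j) ⟨x, (sa19_mem_tors m x).mpr hx⟩ := Subtype.ext hxy.symm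
      rw [hy, ← Module.End.mul_apply, hr]
      rfl
    · show res φ * res TJ = res TJ * res φ
      rw [← map_mul, ← map_mul]
      apply sa19_res_eq
      intro y hy
      rw [Module.End.mul_apply, Module.End.mul_apply, hcomm y hy]
    · show res φ' * res TJ' = res TJ' * res φ'
      rw [← map_mul, ← map_mul]
      apply sa19_res_eq
      intro y hy
      rw [Module.End.mul_apply, Module.End.mul_apply, hcomm' y hy]
    · have e : res φ * res φ - res TJ * res φ
          + ((ℓ : ℤ) : Module.End ℤ (Submodule.torsionBy ℤ J (m : ℤ)))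
          = res (φ * φ - TJ * φ + ((ℓ : ℤ) : Module.End ℤ J)) := by
        simp only [map_add, map_sub, map_mul, map_intCast]
      rw [e, ← map_zero res]
      apply sa19_res_eq
      intro y hy
      rw [LinearMap.add_apply, LinearMap.sub_apply, Module.End.mul_apply, Module.End.mul_apply,
        Module.End.intCast_apply, hcomm y hy, LinearMap.zero_apply]
      exact hquad y hy
    · have e : res φ' * res φ' - res TJ' * res φ'
          + ((ℓ' : ℤ) : Module.End ℤ (Submodule.torsionBy ℤ J (m : ℤ)))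
          = res (φ' * φ' - TJ' * φ' + ((ℓ' : ℤ) : Module.End ℤ J)) := by
        simp only [map_add, map_sub, map_mul, map_intCast]
      rw [e, ← map_zero res]
      apply sa19_res_eq
      intro y hy
      rw [LinearMap.add_apply, LinearMap.sub_apply, Module.End.mul_apply, Module.End.mul_apply,
        Module.End.intCast_apply, hcomm' y hy, LinearMap.zero_apply]
      exact hquad' y hy
    · rw [map_pow]
    · rw [← map_pow]
      exact sa19_res_eq m _ _ hsame
    · obtain ⟨k, hk⟩ := hmod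
      have h1 : ((ℓ ^ j : ℤ) : Module.End ℤ (Submodule.torsionBy ℤ J (m : ℤ)))
          - ((ℓ' ^ j' : ℤ) : Module.End ℤ (Submodule.torsionBy ℤ J (m : ℤ))) = 0 := by
        rw [← Int.cast_sub, hk, Int.cast_mul, sa19_res_natCast, zero_mul]
      exact sub_eq_zero.mp h1
  have h2 : res (sa19_dk TJ ℓ j) = res (sa19_dk TJ' ℓ' j') := by
    rw [sa19_dk_map, sa19_dk_map, key]
  have h3 := congrArg (fun f => ((f ⟨x, (sa19_mem_tors m x).mpr hx⟩ :
    Submodule.torsionBy ℤ J (m : ℤ)) : J)) h2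
  rw [LinearMap.sub_apply, sub_eq_zero]
  exact h3

variable {G : Type*} [Group G] [DistribMulAction G J]

/-- **(A5)**, group-action form: `G` acts on `J`, `φ, φ' : G`. -/
theorem sa19_kill (M : ℕ) (φ φ' : G) (j j' : ℕ) (TJ TJ' : Module.End ℤ J) (ℓ ℓ' : ℕ)
    (hcomm : ∀ x : J, TJ (φ • x) = φ • TJ x) (hcomm' : ∀ x : J, TJ' (φ' • x) = φ' • TJ' x)
    (hquad : ∀ x : J, M • x = 0 → φ • φ • x - φ • TJ x + ℓ • x = 0)
    (hquad' : ∀ x : J, M • x = 0 → φ' • φ' • x - φ' • TJ' x + ℓ' • x = 0)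
    (hsame : ∀ x : J, M • x = 0 → (φ ^ j) • x = (φ' ^ j') • x)
    (hmod : ℓ ^ j ≡ ℓ' ^ j' [MOD M]) (x : J) (hx : M • x = 0) :
    sa19_dk TJ (ℓ : ℤ) j x = sa19_dk TJ' (ℓ' : ℤ) j' x := by
  set gl : G →* Module.End ℤ J := DistribMulAction.toModuleEnd ℤ J with hgl
  have hgl_apply : ∀ (g : G) (y : J), gl g y = g • y := fun g y => rfl
  have hpow : ∀ (g : G) (k : ℕ) (y : J), (gl g ^ k) y = (g ^ k) • y := by
    intro g k y
    rw [← map_pow, hgl_apply]
  have h := sa19_kill_end M (gl φ) (gl φ') TJ TJ' (ℓ : ℤ) (ℓ' : ℤ) j j'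
    (fun y _ => by rw [hgl_apply, hgl_apply, hcomm])
    (fun y _ => by rw [hgl_apply, hgl_apply, hcomm'])
    (fun y hy => by rw [hgl_apply, hgl_apply, hgl_apply, natCast_zsmul]; exact hquad y hy)
    (fun y hy => by rw [hgl_apply, hgl_apply, hgl_apply, natCast_zsmul]; exact hquad' y hy)
    (fun y hy => by rw [hpow, hpow]; exact hsame y hy)
    (fun y hy => ⟨(φ ^ j)⁻¹ • y, by rw [smul_comm, hy, smul_zero], by
      rw [hpow, smul_inv_smul]⟩)
    (by
      have := (Nat.modEq_iff_dvd.mp hmod)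
      obtain ⟨k, hk⟩ := this
      exact ⟨-k, by rw [mul_neg, ← hk]; push_cast; ring⟩) x hx
  rw [LinearMap.sub_apply, sub_eq_zero] at h
  exact h

end Module

section Lattice

variable {J : Type*} [AddCommGroup J] {L : Type*} [AddCommGroup L]

/-- an additive map intertwining `TB` and `TJ` intertwines the Dickson values. -/
theorem sa19_dk_intertwine (ι : L →+ J) (TB : Module.End ℤ L) (TJ : Module.End ℤ J)
    (hequiv : ∀ v : L, ι (TB v) = TJ (ι v)) (e : ℤ) (j : ℕ) (v : L) :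
    ι (sa19_dk TB e j v) = sa19_dk TJ e j (ι v) := by
  induction j using Nat.strong_induction_on generalizing v with
  | _ j ih =>
    match j with
    | 0 =>
      rw [sa19_dk_zero, sa19_dk_zero]
      show ι (((2 : ℕ) : Module.End ℤ L) v) = ((2 : ℕ) : Module.End ℤ J) (ι v)
      rw [Module.End.natCast_apply, Module.End.natCast_apply, map_nsmul]
    | 1 => rw [sa19_dk_one, sa19_dk_one, hequiv]
    | (j + 2) =>
      rw [sa19_dk_succ_succ, sa19_dk_succ_succ, LinearMap.sub_apply, LinearMap.sub_apply,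
        Module.End.mul_apply, Module.End.mul_apply, Module.End.mul_apply, Module.End.mul_apply,
        Module.End.intCast_apply, Module.End.intCast_apply, map_sub, hequiv, map_zsmul,
        ih (j + 1) (by omega), ih j (by omega)]

/-- **(A6)**: pull the relation `D_j(TJ, e) = D_j'(TJ', e')` on `J[m]` back along a comparison map
`ι : L →+ J[m]` with kernel `m L`: the Betti Dickson difference maps `L` into `m L`. -/
theorem sa19_lattice (m : ℕ) (ι : L →+ J) (TB TB' : Module.End ℤ L) (TJ TJ' : Module.End ℤ J)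
    (e e' : ℤ) (j j' : ℕ)
    (htors : ∀ v : L, m • ι v = 0)
    (hker : ∀ v : L, ι v = 0 → ∃ w : L, v = (m : ℤ) • w)
    (hequiv : ∀ v : L, ι (TB v) = TJ (ι v)) (hequiv' : ∀ v : L, ι (TB' v) = TJ' (ι v))
    (hkill : ∀ x : J, m • x = 0 → (sa19_dk TJ e j - sa19_dk TJ' e' j') x = 0) (v : L) :
    ∃ w : L, (sa19_dk TB e j - sa19_dk TB' e' j') v = (m : ℤ) • w := by
  apply hker
  have h := hkill _ (htors v)
  rw [LinearMap.sub_apply] at h
  rw [LinearMap.sub_apply, map_sub, sa19_dk_intertwine ι TB TJ hequiv,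
    sa19_dk_intertwine ι TB' TJ' hequiv', h]

/-- **(A5) + (A6)**, endomorphism form. -/
theorem sa19_lattice_kill_end (m : ℕ) (ι : L →+ J) (TB TB' : Module.End ℤ L)
    (φ φ' TJ TJ' : Module.End ℤ J) (ℓ ℓ' : ℤ) (j j' : ℕ)
    (htors : ∀ v : L, m • ι v = 0)
    (hker : ∀ v : L, ι v = 0 → ∃ w : L, v = (m : ℤ) • w)
    (hequiv : ∀ v : L, ι (TB v) = TJ (ι v)) (hequiv' : ∀ v : L, ι (TB' v) = TJ' (ι v))
    (hcomm : ∀ x : J, m • x = 0 → TJ (φ x) = φ (TJ x))
    (hcomm' : ∀ x : J, m • x = 0 → TJ' (φ' x) = φ' (TJ' x))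
    (hquad : ∀ x : J, m • x = 0 → φ (φ x) - φ (TJ x) + ℓ • x = 0)
    (hquad' : ∀ x : J, m • x = 0 → φ' (φ' x) - φ' (TJ' x) + ℓ' • x = 0)
    (hsame : ∀ x : J, m • x = 0 → (φ ^ j) x = (φ' ^ j') x)
    (hsurj : ∀ y : J, m • y = 0 → ∃ x : J, m • x = 0 ∧ (φ ^ j) x = y)
    (hmod : (m : ℤ) ∣ ℓ ^ j - ℓ' ^ j') (v : L) :
    ∃ w : L, (sa19_dk TB ℓ j - sa19_dk TB' ℓ' j') v = (m : ℤ) • w :=
  sa19_lattice m ι TB TB' TJ TJ' ℓ ℓ' j j' htors hker hequiv hequiv'
    (sa19_kill_end m φ φ' TJ TJ' ℓ ℓ' j j' hcomm hcomm' hquad hquad' hsame hsurj hmod) v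

variable {G : Type*} [Group G] [DistribMulAction G J]

/-- **(A5) + (A6)**, group-action form: from the Frobenius data at level `M` to the Betti
divisibility.  The hypotheses are literally the shapes of `esl_heckeOperatorBar_smul`,
`esl_frob_quadratic_closed`, `tlap90_iotaPkg`, `fe98_smul_eq_of_mem`, `fe98_pow_modEq`. -/
theorem sa19_lattice_kill (M : ℕ) (ι : L →+ J) (TB TB' : Module.End ℤ L)
    (TJ TJ' : Module.End ℤ J) (φ φ' : G) (j j' : ℕ) (ℓ ℓ' : ℕ)
    (htors : ∀ v : L, M • ι v = 0)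
    (hker : ∀ v : L, ι v = 0 → ∃ w : L, v = (M : ℤ) • w)
    (hequiv : ∀ v : L, ι (TB v) = TJ (ι v)) (hequiv' : ∀ v : L, ι (TB' v) = TJ' (ι v))
    (hcomm : ∀ x : J, TJ (φ • x) = φ • TJ x) (hcomm' : ∀ x : J, TJ' (φ' • x) = φ' • TJ' x)
    (hquad : ∀ x : J, M • x = 0 → φ • φ • x - φ • TJ x + ℓ • x = 0)
    (hquad' : ∀ x : J, M • x = 0 → φ' • φ' • x - φ' • TJ' x + ℓ' • x = 0)
    (hsame : ∀ x : J, M • x = 0 → (φ ^ j) • x = (φ' ^ j') • x)
    (hmod : ℓ ^ j ≡ ℓ' ^ j' [MOD M]) (v : L) :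
    ∃ w : L, (sa19_dk TB (ℓ : ℤ) j - sa19_dk TB' (ℓ' : ℤ) j') v = (M : ℤ) • w :=
  sa19_lattice M ι TB TB' TJ TJ' ℓ ℓ' j j' htors hker hequiv hequiv'
    (fun x hx => by
      rw [LinearMap.sub_apply, sub_eq_zero]
      exact sa19_kill M φ φ' j j' TJ TJ' ℓ ℓ' hcomm hcomm' hquad hquad' hsame hmod x hx) v

end Lattice

end Fermat.Agent.S31x
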