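/-
S31 project (architect helper77), junction A5 + A6 (LATTICE), twin of helper76's `s31i76_lattice`
(helper40, prefix `lat40_`).

`lat40_lattice` : for every modulus `m > 0`, primes `ℓ, ℓ' ∤ N m`, Frobenius elements `φ, φ'` at
places over `ℓ, ℓ'` and exponents `j, j'` with `φ^j = φ'^j'` on `J₀(N)[m]` and
`ℓ^j ≡ ℓ'^j' mod m`, the Betti Dickson difference
`D_j(T^B_ℓ, ℓ) - D_{j'}(T^B_{ℓ'}, ℓ')` maps the lattice `lrL N` into `m • lrL N`.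

This is LITERALLY (up to unfolding `s31t77_D e j := qpw_dickson X (C e) j`) the body of
`s31t77_LatticeHyp N` of `S31x/StepATop77.lean`.

Proof: helper19's abstract `sa19_lattice_kill` with `ι := tla40_iota N m` (comparison map at modulus
`m`, S42x/TopLowAllP40), `esl_heckeOperatorBar_smul`, `esl_frob_quadratic_closed` (Eichler–Shimura).
-/
import Mathlib
import Fermat.Agent.S31x.StepA19
import Fermat.Agent.S42x.TopLowAllP40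
import Fermat.Agent.S42x.ESlFinal

set_option autoImplicit false

namespace Fermat.Agent.S31x

open Polynomial ModularCurve ValuationSubring Fermat.Agent.S41x Fermat.Agent.S42x

local notation "Qbar" => AlgebraicClosure ℚ
local notation "GQ" => (AlgebraicClosure ℚ ≃ₐ[ℚ] AlgebraicClosure ℚ)

/-- **A5 + A6 on `JZero N` / `lrL N`**, `sa19_dk` form. -/
theorem lat40_lattice_dk (N : ℕ) [NeZero N] (m : ℕ) (hm : 0 < m) (ℓ ℓ' : Nat.Primes)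
    (hℓN : ¬ (ℓ : ℕ) ∣ N) (hℓm : ¬ (ℓ : ℕ) ∣ m) (hℓ'N : ¬ (ℓ' : ℕ) ∣ N) (hℓ'm : ¬ (ℓ' : ℕ) ∣ m)
    (A A' : ValuationSubring Qbar) (hA : A.LiesOverPrime ℓ) (hA' : A'.LiesOverPrime ℓ')
    (φ φ' : GQ) (hφ : A.IsFrobeniusAt φ ℓ) (hφ' : A'.IsFrobeniusAt φ' ℓ') (j j' : ℕ)
    (hsame : ∀ x : JZero N, m • x = 0 → (φ ^ j) • x = (φ' ^ j') • x)
    (hmod : (ℓ : ℕ) ^ j ≡ (ℓ' : ℕ) ^ j' [MOD m]) (v : lrL N) :
    ∃ w : lrL N, (sa19_dk (lrtT N ℓ) (((ℓ : ℕ) : ℤ)) j -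
      sa19_dk (lrtT N ℓ') (((ℓ' : ℕ) : ℤ)) j') v = (m : ℤ) • w := by
  refine sa19_lattice_kill m (tla40_iota N m hm) (lrtT N ℓ) (lrtT N ℓ')
    (heckeOperatorBar N ℓ) (heckeOperatorBar N ℓ') φ φ' j j' (ℓ : ℕ) (ℓ' : ℕ)
    (tla40_tors m hm) (tla40_ker m hm) (tla40_hecke m hm ℓ hℓN) (tla40_hecke m hm ℓ' hℓ'N)
    (fun x => esl_heckeOperatorBar_smul N ℓ φ x) (fun x => esl_heckeOperatorBar_smul N ℓ' φ' x)
    (fun x hx => ?_) (fun x hx => ?_) hsame hmod v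
  · exact esl_frob_quadratic_closed N ℓ ℓ.2 hℓN A hA m hℓm x hx φ hφ
  · exact esl_frob_quadratic_closed N ℓ' ℓ'.2 hℓ'N A' hA' m hℓ'm x hx φ' hφ'

/-- **A5 + A6 on `JZero N` / `lrL N`**, Dickson-polynomial form = body of `s31t77_LatticeHyp N`. -/
theorem lat40_lattice (N : ℕ) [NeZero N] :
    ∀ m : ℕ, 0 < m → ∀ ℓ ℓ' : Nat.Primes, ¬ (ℓ : ℕ) ∣ N → ¬ (ℓ : ℕ) ∣ m → ¬ (ℓ' : ℕ) ∣ N →
    ¬ (ℓ' : ℕ) ∣ m → ∀ A A' : ValuationSubring Qbar, A.LiesOverPrime ℓ → A'.LiesOverPrime ℓ' →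
    ∀ φ φ' : GQ, A.IsFrobeniusAt φ ℓ → A'.IsFrobeniusAt φ' ℓ' → ∀ j j' : ℕ,
    (∀ x : JZero N, m • x = 0 → (φ ^ j) • x = (φ' ^ j') • x) →
    (ℓ : ℕ) ^ j ≡ (ℓ' : ℕ) ^ j' [MOD m] →
    ∀ v : lrL N, ∃ w : lrL N,
      (aeval (lrtT N ℓ) (qpw_dickson (X : ℤ[X]) (C (((ℓ : ℕ) : ℤ))) j) -
        aeval (lrtT N ℓ') (qpw_dickson (X : ℤ[X]) (C (((ℓ' : ℕ) : ℤ))) j')) v = (m : ℤ) • w := by
  intro m hm ℓ ℓ' hℓN hℓm hℓ'N hℓ'm A A' hA hA' φ φ' hφ hφ' j j' hsame hmod v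
  rw [sa19_aeval_dickson, sa19_aeval_dickson]
  exact lat40_lattice_dk N m hm ℓ ℓ' hℓN hℓm hℓ'N hℓ'm A A' hA hA' φ φ' hφ hφ' j j' hsame hmod v

end Fermat.Agent.S31x
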