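/-
S31 project (architect helper77), leaf S31-E (helper98, prefix `fe98_`).

The finite Galois-stable field `F` trivialising the `n`-torsion of `J₀(N)` and the `n`-th roots of
unity (used with `n = p ^ m`), containing a given finite extension `L` (the field `L_n` of adic
continuity), together with the consequences used in Step A of `ROUTE_S31_helper77`:

* `fe98_omega0_frob`, `fe98_omega0_frob_pow` : the mod-`n` cyclotomic character of a Frobenius lift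
  at `ℓ ∤ n` is `ℓ`, of its `j`-th power `ℓ ^ j` (any `n ≠ 0`, not only primes);
* `fe98_omega0_inertia` : inertia at `q ∤ n` has trivial mod-`n` cyclotomic character;
* `fe98_exists_field` : the field `F`;
* `fe98_smul_eq_of_mem`, `fe98_omega0_eq_of_mem` : two elements of `G_ℚ` agreeing on `F` act in the
  same way on the `n`-torsion and have the same cyclotomic character;
* `fe98_pow_congr` : `g = φ ^ j` and `g σ = φ' ^ j'` on `F`, `σ` with trivial cyclotomic character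
  `⇒ ℓ ^ j = ℓ' ^ j'` in `ZMod n`.
-/
import Mathlib
import Fermat.Agent.S42x.FinOmega
import Fermat.Agent.S42x.FinOrbit
import Fermat.Agent.S42x.FinLevel
import Fermat.Agent.S42x.InertiaCyc

set_option autoImplicit false

namespace Fermat.Agent.S31x

open Fermat.Agent.S42x ValuationSubring

local notation "Qbar" => AlgebraicClosure ℚ
local notation "GQ" => (AlgebraicClosure ℚ ≃ₐ[ℚ] AlgebraicClosure ℚ)

/-- **`ω_n(Frob_ℓ) = ℓ`** for an arbitrary modulus `n ≠ 0` and a prime `ℓ ∤ n`. -/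
theorem fe98_omega0_frob {n ℓ : ℕ} [NeZero n] (hℓ : ℓ.Prime) (hℓn : ¬ ℓ ∣ n)
    (A : ValuationSubring Qbar) (hA : A.LiesOverPrime ℓ) (τ : GQ) (hτ : A.IsFrobeniusAt τ ℓ) :
    ((fin_omega0 n τ : (ZMod n)ˣ) : ZMod n) = (ℓ : ZMod n) := by
  obtain ⟨ζ, hζ⟩ := fin_exists_primitiveRoot n
  have h1 := Fermat.Agent.S41x.brcy_frobenius_apply_root hℓ hℓn A hA τ hτ hζ
  have h2 := fin_omega0_spec n τ hζ
  rw [h1] at h2
  have h3 : (ℓ : ZMod n) = ((((fin_omega0 n τ : (ZMod n)ˣ) : ZMod n).val : ℕ) : ZMod n) := by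
    rw [ZMod.natCast_eq_natCast_iff]
    exact (fin_pow_eq_pow_iff hζ).1 h2
  rw [h3, ZMod.natCast_zmod_val]

/-- `ω_n(Frob_ℓ ^ j) = ℓ ^ j`. -/
theorem fe98_omega0_frob_pow {n ℓ : ℕ} [NeZero n] (hℓ : ℓ.Prime) (hℓn : ¬ ℓ ∣ n)
    (A : ValuationSubring Qbar) (hA : A.LiesOverPrime ℓ) (τ : GQ) (hτ : A.IsFrobeniusAt τ ℓ)
    (j : ℕ) :
    ((fin_omega0 n (τ ^ j) : (ZMod n)ˣ) : ZMod n) = (ℓ : ZMod n) ^ j := by
  rw [map_pow, Units.val_pow_eq_pow_val, fe98_omega0_frob hℓ hℓn A hA τ hτ]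

/-- inertia at `q ∤ n` has trivial mod-`n` cyclotomic character. -/
theorem fe98_omega0_inertia {n q : ℕ} [NeZero n] (hq : q.Prime) (hqn : ¬ q ∣ n)
    (P : ValuationSubring Qbar) (hP : P.LiesOverPrime q) (σ : GQ)
    (hσ : σ ∈ P.inertiaSubgroupIn ℚ) : fin_omega0 n σ = 1 := by
  rw [fin_omega0_apply]
  exact icy_modularCyclotomicCharacter_inertia hq hqn (fin_card_roots n) P hP σ hσ

/-- **S31-E (E1)**: a finite-dimensional Galois-stable subfield `F ⊇ L` of `ℚ̄` whose fixing subgroup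
acts trivially on the `n`-torsion of `J₀(N)` and on the `n`-th roots of unity. -/
theorem fe98_exists_field (N n : ℕ) [NeZero n]
    (hfin : {x : ModularCurve.JZero N | (n : ℤ) • x = 0}.Finite)
    (L : IntermediateField ℚ Qbar) (hL : FiniteDimensional ℚ L) :
    ∃ F : IntermediateField ℚ Qbar, FiniteDimensional ℚ F ∧ L ≤ F ∧
      (∀ σ : GQ, ∀ x ∈ F, σ x ∈ F) ∧
      (∀ σ : GQ, σ ∈ F.fixingSubgroup →
        ∀ x : ModularCurve.JZero N, (n : ℤ) • x = 0 → σ • x = x) ∧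
      (∀ σ : GQ, σ ∈ F.fixingSubgroup → fin_omega0 n σ = 1) := by
  have hn : (n : ℤ) ≠ 0 := by exact_mod_cast NeZero.ne n
  obtain ⟨L1, hL1, h1⟩ := finl_stab_open_torsion N (n : ℤ) hn hfin
  obtain ⟨L2, hL2, h2⟩ := fin_omega0_open n
  have hL12 : FiniteDimensional ℚ (↥(L1 ⊔ L2)) := IntermediateField.finiteDimensional_sup L1 L2
  obtain ⟨F, hF, hLF, h12F, hstab⟩ := fino_exists_stable L (L1 ⊔ L2) hL hL12
  refine ⟨F, hF, hLF, hstab, ?_, ?_⟩
  · intro σ hσ x hx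
    exact h1 σ (IntermediateField.fixingSubgroup_antitone (le_trans le_sup_left h12F) hσ) x hx
  · intro σ hσ
    apply h2 σ
    intro a ha
    exact (IntermediateField.mem_fixingSubgroup_iff _ σ).mp hσ a
      (h12F ((le_sup_right : L2 ≤ L1 ⊔ L2) ha))

/-- two elements of `G_ℚ` that agree modulo a subgroup acting trivially on the `n`-torsion act in the
same way on the `n`-torsion. -/
theorem fe98_smul_eq_of_mem {N n : ℕ} {F : IntermediateField ℚ Qbar}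
    (hF : ∀ σ : GQ, σ ∈ F.fixingSubgroup →
      ∀ x : ModularCurve.JZero N, (n : ℤ) • x = 0 → σ • x = x)
    {g h : GQ} (hgh : g⁻¹ * h ∈ F.fixingSubgroup) (x : ModularCurve.JZero N)
    (hx : (n : ℤ) • x = 0) : g • x = h • x := by
  have h1 : h = g * (g⁻¹ * h) := by group
  rw [h1, mul_smul, hF _ hgh x hx]

/-- the same for the cyclotomic character. -/
theorem fe98_omega0_eq_of_mem {n : ℕ} [NeZero n] {F : IntermediateField ℚ Qbar}
    (hF : ∀ σ : GQ, σ ∈ F.fixingSubgroup → fin_omega0 n σ = 1)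
    {g h : GQ} (hgh : g⁻¹ * h ∈ F.fixingSubgroup) : fin_omega0 n g = fin_omega0 n h := by
  have h1 : h = g * (g⁻¹ * h) := by group
  rw [h1, map_mul, hF _ hgh, mul_one]

/-- **S31-E (E4)**: if `g = φ ^ j` and `g σ = φ' ^ j'` on `F` (Frobenius lifts at `ℓ, ℓ' ∤ n`) and `σ`
has trivial mod-`n` cyclotomic character, then `ℓ ^ j = ℓ' ^ j'` in `ZMod n`. -/
theorem fe98_pow_congr {n : ℕ} [NeZero n] {F : IntermediateField ℚ Qbar}
    (hF : ∀ σ : GQ, σ ∈ F.fixingSubgroup → fin_omega0 n σ = 1)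
    {g σ : GQ} (hσ : fin_omega0 n σ = 1)
    {ℓ ℓ' : ℕ} (hℓ : ℓ.Prime) (hℓn : ¬ ℓ ∣ n) (hℓ' : ℓ'.Prime) (hℓ'n : ¬ ℓ' ∣ n)
    (A A' : ValuationSubring Qbar) (hA : A.LiesOverPrime ℓ) (hA' : A'.LiesOverPrime ℓ')
    (φ φ' : GQ) (hφ : A.IsFrobeniusAt φ ℓ) (hφ' : A'.IsFrobeniusAt φ' ℓ') (j j' : ℕ)
    (hg : g⁻¹ * φ ^ j ∈ F.fixingSubgroup) (hgσ : (g * σ)⁻¹ * φ' ^ j' ∈ F.fixingSubgroup) :
    (ℓ : ZMod n) ^ j = (ℓ' : ZMod n) ^ j' := by
  have h1 := fe98_omega0_eq_of_mem hF hg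
  have h2 := fe98_omega0_eq_of_mem hF hgσ
  rw [map_mul, hσ, mul_one] at h2
  rw [← fe98_omega0_frob_pow hℓ hℓn A hA φ hφ j, ← fe98_omega0_frob_pow hℓ' hℓ'n A' hA' φ' hφ' j',
    ← h1, ← h2]

/-- natural-number congruence form of `fe98_pow_congr`. -/
theorem fe98_pow_modEq {n : ℕ} [NeZero n] {F : IntermediateField ℚ Qbar}
    (hF : ∀ σ : GQ, σ ∈ F.fixingSubgroup → fin_omega0 n σ = 1)
    {g σ : GQ} (hσ : fin_omega0 n σ = 1)
    {ℓ ℓ' : ℕ} (hℓ : ℓ.Prime) (hℓn : ¬ ℓ ∣ n) (hℓ' : ℓ'.Prime) (hℓ'n : ¬ ℓ' ∣ n)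
    (A A' : ValuationSubring Qbar) (hA : A.LiesOverPrime ℓ) (hA' : A'.LiesOverPrime ℓ')
    (φ φ' : GQ) (hφ : A.IsFrobeniusAt φ ℓ) (hφ' : A'.IsFrobeniusAt φ' ℓ') (j j' : ℕ)
    (hg : g⁻¹ * φ ^ j ∈ F.fixingSubgroup) (hgσ : (g * σ)⁻¹ * φ' ^ j' ∈ F.fixingSubgroup) :
    ℓ ^ j ≡ ℓ' ^ j' [MOD n] := by
  have h := fe98_pow_congr hF hσ hℓ hℓn hℓ' hℓ'n A A' hA hA' φ φ' hφ hφ' j j' hg hgσ
  rw [← ZMod.natCast_eq_natCast_iff]
  push_cast
  exact h

end Fermat.Agent.S31x
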