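/-
S31 project, block S31-P3 (helper91, prefix `sta91_`): the ABSTRACT Step A (trace congruence).

* `sta91_trace_mem`      : `V` finite free over `T`, `f (V) ⊆ I V` ⟹ `trace f ∈ I`.
* `sta91_trace_of_charpoly` : rank `2`, `charpoly f = X^2 - a X + d` ⟹ `trace f = a`.
* `sta91_trace_pow`      : rank `2`, `charpoly f = X^2 - a X + d` ⟹ `trace (f^j) = D_j(a,d)`
                           (`qpw_dickson`, S42x/QuadPow).
* `sta91_trace_congr`    : `F = Φ^j * U`, `U ≡ 1 mod I` ⟹ `trace F - D_j(a,d) ∈ I`.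
* `sta91_kill`           : two quadratic relations for the same invertible `ψ = s^j = s'^j'` with
                           `d^j ≡ d'^j'` ⟹ `D_j(x,d) - D_j'(x',d')` kills the module.
* `sta91_trace_eq`       : the abstract Step A.
Mathlib + S42x/QuadPow only.
-/
import Mathlib
import Fermat.Agent.S42x.QuadPow

set_option autoImplicit false

namespace Fermat.Agent.S31x

open Polynomial Module Fermat.Agent.S42x

section Trace

variable {T : Type*} [CommRing T] {V : Type*} [AddCommGroup V] [Module T V]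
  [Module.Free T V] [Module.Finite T V]

omit [Module.Free T V] [Module.Finite T V] in
/-- coordinates of an element of `I V` lie in `I` -/
lemma sta91_repr_mem {ι : Type*} (b : Basis ι T V) (I : Ideal T) {x : V}
    (hx : x ∈ I • (⊤ : Submodule T V)) (i : ι) : b.repr x i ∈ I := by
  refine Submodule.smul_induction_on (p := fun x => b.repr x i ∈ I) hx ?_ ?_
  · intro r hr m _
    rw [map_smul, Finsupp.smul_apply, smul_eq_mul]
    exact I.mul_mem_right _ hr
  · intro x y hx hy
    rw [map_add, Finsupp.add_apply]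
    exact I.add_mem hx hy

/-- an endomorphism of a finite free module with image in `I V` has trace in `I` -/
theorem sta91_trace_mem (I : Ideal T) (f : Module.End T V)
    (hf : ∀ v : V, f v ∈ I • (⊤ : Submodule T V)) : LinearMap.trace T V f ∈ I := by
  classical
  let b := Module.Free.chooseBasis T V
  rw [LinearMap.trace_eq_matrix_trace T b f, Matrix.trace]
  refine I.sum_mem fun i _ => ?_
  rw [Matrix.diag_apply, LinearMap.toMatrix_apply]
  exact sta91_repr_mem b I (hf (b i)) i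


/-- trace and determinant from the characteristic polynomial in rank 2 (ring version of
`alm_trace_det_of_charpoly`) -/
theorem sta91_trace_det_of_charpoly [Nontrivial T] (hV : finrank T V = 2) (f : Module.End T V)
    (a d : T) (hf : LinearMap.charpoly f = X ^ 2 - C a * X + C d) :
    LinearMap.trace T V f = a ∧ LinearMap.det f = d := by
  let b : Basis (Fin 2) T V := Module.finBasisOfFinrankEq T V hV
  have h1 : (LinearMap.toMatrix b b f).charpoly = LinearMap.charpoly f :=
    LinearMap.charpoly_toMatrix f b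
  rw [Matrix.charpoly_fin_two, hf] at h1
  have htr : (LinearMap.toMatrix b b f).trace = LinearMap.trace T V f :=
    (LinearMap.trace_eq_matrix_trace T b f).symm
  have hdet : (LinearMap.toMatrix b b f).det = LinearMap.det f := LinearMap.det_toMatrix b f
  rw [htr, hdet] at h1
  have c1 := congrArg (fun p : T[X] => p.coeff 1) h1
  have c0 := congrArg (fun p : T[X] => p.coeff 0) h1
  simp only [coeff_add, coeff_sub, coeff_X_pow, coeff_C_mul, coeff_X_one, coeff_C_zero,
    coeff_X_zero, mul_zero, mul_one] at c1 c0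
  simp at c1 c0
  exact ⟨c1, c0⟩

/-- Cayley--Hamilton in the quadratic form -/
theorem sta91_cayley (f : Module.End T V) (a d : T)
    (hf : LinearMap.charpoly f = X ^ 2 - C a * X + C d) :
    f * f - a • f + d • (1 : Module.End T V) = 0 := by
  have h := LinearMap.aeval_self_charpoly f
  rw [hf] at h
  simp only [map_add, map_sub, map_mul, aeval_X, aeval_C, pow_two] at h
  rw [Algebra.algebraMap_eq_smul_one, Algebra.algebraMap_eq_smul_one, smul_mul_assoc,
    one_mul] at h
  exact h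

/-- **Dickson traces**: in rank `2`, `trace (f ^ j) = D_j(a, d)`. -/
theorem sta91_trace_pow [Nontrivial T] (hV : finrank T V = 2) (f : Module.End T V) (a d : T)
    (hf : LinearMap.charpoly f = X ^ 2 - C a * X + C d) (j : ℕ) :
    LinearMap.trace T V (f ^ j) = qpw_dickson a d j := by
  have hCH := sta91_cayley f a d hf
  have hff : f * f = a • f - d • (1 : Module.End T V) := by
    have : f * f - (a • f - d • (1 : Module.End T V)) = 0 := by
      rw [← hCH]; abel
    exact sub_eq_zero.1 this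
  induction j using Nat.strong_induction_on with
  | _ j ih =>
    match j with
    | 0 =>
      rw [pow_zero, qpw_dickson_zero, LinearMap.trace_one, hV]
      norm_num
    | 1 =>
      rw [pow_one, qpw_dickson_one]
      exact (sta91_trace_det_of_charpoly hV f a d hf).1
    | (j + 2) =>
      have h1 := ih (j + 1) (by omega)
      have h0 := ih j (by omega)
      have e : f ^ (j + 2) = a • f ^ (j + 1) - d • f ^ j := by
        rw [pow_add, pow_two, hff, mul_sub, mul_smul_comm, mul_smul_comm, mul_one, ← pow_succ]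
      rw [e, map_sub, map_smul, map_smul, h1, h0, qpw_dickson_succ_succ, smul_eq_mul, smul_eq_mul]

/-- `F = Φ ^ j * U` with `U ≡ 1` modulo `I` ⟹ `trace F ≡ D_j(a, d)` modulo `I`. -/
theorem sta91_trace_congr [Nontrivial T] (hV : finrank T V = 2) (I : Ideal T)
    (F Φ U : Module.End T V) (a d : T) (j : ℕ)
    (hΦ : LinearMap.charpoly Φ = X ^ 2 - C a * X + C d) (hF : F = Φ ^ j * U)
    (hU : ∀ v : V, U v - v ∈ I • (⊤ : Submodule T V)) :
    LinearMap.trace T V F - qpw_dickson a d j ∈ I := by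
  have h1 : F - Φ ^ j = Φ ^ j * (U - 1) := by rw [hF, mul_sub, mul_one]
  have h2 : LinearMap.trace T V (F - Φ ^ j) ∈ I := by
    apply sta91_trace_mem
    intro v
    rw [h1, Module.End.mul_apply, LinearMap.sub_apply, Module.End.one_apply]
    have h3 : (Φ ^ j) (U v - v) ∈ (I • (⊤ : Submodule T V)).map (Φ ^ j) :=
      Submodule.mem_map_of_mem (hU v)
    rw [Submodule.map_smul''] at h3
    exact Submodule.smul_mono le_rfl le_top h3
  rw [map_sub, sta91_trace_pow hV Φ a d hΦ j] at h2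
  exact h2


/-- **the trace congruence at one level** (group form): `g = φ^j u`, `g s = φ₂^j₂ u₂` with
`ρ u ≡ ρ u₂ ≡ 1` modulo `I`, Frobenius characteristic polynomials for `φ, φ₂`, and
`D_j(a,d) ≡ D_j₂(a₂,d₂)` modulo `I` ⟹ `trace ρ(g s) ≡ trace ρ(g)` modulo `I`. -/
theorem sta91_congr [Nontrivial T] (hV : finrank T V = 2) (I : Ideal T) {G : Type*} [Group G]
    (ρ : G →* Module.End T V) (g s φ φ₂ u u₂ : G) (j j₂ : ℕ) (a d a₂ d₂ : T)
    (hφ : LinearMap.charpoly (ρ φ) = X ^ 2 - C a * X + C d)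
    (hφ₂ : LinearMap.charpoly (ρ φ₂) = X ^ 2 - C a₂ * X + C d₂)
    (hg : g = φ ^ j * u) (hgs : g * s = φ₂ ^ j₂ * u₂)
    (hu : ∀ v : V, ρ u v - v ∈ I • (⊤ : Submodule T V))
    (hu₂ : ∀ v : V, ρ u₂ v - v ∈ I • (⊤ : Submodule T V))
    (hD : qpw_dickson a d j - qpw_dickson a₂ d₂ j₂ ∈ I) :
    LinearMap.trace T V (ρ (g * s)) - LinearMap.trace T V (ρ g) ∈ I := by
  have h1 : LinearMap.trace T V (ρ g) - qpw_dickson a d j ∈ I :=
    sta91_trace_congr hV I (ρ g) (ρ φ) (ρ u) a d j hφ (by rw [hg, map_mul, map_pow]) hu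
  have h2 : LinearMap.trace T V (ρ (g * s)) - qpw_dickson a₂ d₂ j₂ ∈ I :=
    sta91_trace_congr hV I (ρ (g * s)) (ρ φ₂) (ρ u₂) a₂ d₂ j₂ hφ₂
      (by rw [hgs, map_mul, map_pow]) hu₂
  have e : LinearMap.trace T V (ρ (g * s)) - LinearMap.trace T V (ρ g)
      = (LinearMap.trace T V (ρ (g * s)) - qpw_dickson a₂ d₂ j₂)
        - (LinearMap.trace T V (ρ g) - qpw_dickson a d j)
        - (qpw_dickson a d j - qpw_dickson a₂ d₂ j₂) := by ring
  rw [e]
  exact I.sub_mem (I.sub_mem h2 h1) hD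

omit [Module.Free T V] [Module.Finite T V] in
/-- the separatedness step: a congruence modulo every power of `𝔪` is an equality -/
theorem sta91_eq_of_forall_mem (𝔪 : Ideal T) (hsep : ∀ x : T, (∀ n : ℕ, x ∈ 𝔪 ^ n) → x = 0)
    {x y : T} (h : ∀ n : ℕ, x - y ∈ 𝔪 ^ n) : x = y :=
  sub_eq_zero.1 (hsep _ h)

omit [Module.Free T V] [Module.Finite T V] in
/-- Krull: a Noetherian local ring is separated for its maximal ideal -/
theorem sta91_sep_of_noetherian [IsLocalRing T] [IsNoetherianRing T] (x : T)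
    (h : ∀ n : ℕ, x ∈ IsLocalRing.maximalIdeal T ^ n) : x = 0 := by
  have h1 : x ∈ ⨅ n : ℕ, IsLocalRing.maximalIdeal T ^ n := by
    rw [Ideal.mem_iInf]
    exact h
  rw [Ideal.iInf_pow_eq_bot_of_isLocalRing _ (IsLocalRing.maximalIdeal.isMaximal T).ne_top] at h1
  exact h1

omit [Module.Free T V] [Module.Finite T V] in
/-- an adically complete ring is separated -/
theorem sta91_sep_of_hausdorff (𝔪 : Ideal T) [IsHausdorff 𝔪 T] (x : T)
    (h : ∀ n : ℕ, x ∈ 𝔪 ^ n) : x = 0 := by
  apply IsHausdorff.haus (I := 𝔪) (M := T) ‹_› x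
  intro n
  rw [SModEq.zero]
  rw [smul_eq_mul, Ideal.mul_top]
  exact h n


/-- **T-side of Step A**: if for every `n` there are Frobenius data for `g` and `g s` at level `n`
with `D_j(a,d) ≡ D_j₂(a₂,d₂)` modulo `𝔪 ^ n`, then `trace ρ(g s) = trace ρ(g)`. -/
theorem sta91_trace_eq [Nontrivial T] (hV : finrank T V = 2) (𝔪 : Ideal T)
    (hsep : ∀ x : T, (∀ n : ℕ, x ∈ 𝔪 ^ n) → x = 0) {G : Type*} [Group G]
    (ρ : G →* Module.End T V) (g s : G)
    (h : ∀ n : ℕ, ∃ (φ φ₂ u u₂ : G) (j j₂ : ℕ) (a d a₂ d₂ : T),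
      LinearMap.charpoly (ρ φ) = X ^ 2 - C a * X + C d ∧
      LinearMap.charpoly (ρ φ₂) = X ^ 2 - C a₂ * X + C d₂ ∧
      g = φ ^ j * u ∧ g * s = φ₂ ^ j₂ * u₂ ∧
      (∀ v : V, ρ u v - v ∈ (𝔪 ^ n) • (⊤ : Submodule T V)) ∧
      (∀ v : V, ρ u₂ v - v ∈ (𝔪 ^ n) • (⊤ : Submodule T V)) ∧
      qpw_dickson a d j - qpw_dickson a₂ d₂ j₂ ∈ 𝔪 ^ n) :
    LinearMap.trace T V (ρ (g * s)) = LinearMap.trace T V (ρ g) := by
  apply sta91_eq_of_forall_mem 𝔪 hsep
  intro n
  obtain ⟨φ, φ₂, u, u₂, j, j₂, a, d, a₂, d₂, hφ, hφ₂, hg, hgs, hu, hu₂, hD⟩ := h n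
  exact sta91_congr hV (𝔪 ^ n) ρ g s φ φ₂ u u₂ j j₂ a d a₂ d₂ hφ hφ₂ hg hgs hu hu₂ hD

end Trace

end Fermat.Agent.S31x
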