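/-
S31 scouting (route doc `ROUTE_S31_helper77`), block S31-P2a : absolutely irreducible ⟹ the image spans `End`.
(helper77, prefix `s31a77_`.)  Mathlib + `S42x/QuadRepB86` (`qd86_burnside`, Mathlib only).

* `s31a77_burnside_span` : `K` algebraically closed, `ρ : G →* End_K(V)` irreducible, `V` finite dimensional:
                            `span_K ρ(G) = End_K(V)`.
* `s31a77_span_descent`  : `k ⊆ K` fields, `ρ : G →* End_k(V)`; if the base-changed image spans
                            `End_K(K ⊗ V)` then `span_k ρ(G) = End_k(V)`.
* `s31a77_span_of_absIrr`: the combination.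
-/
import Mathlib
import Fermat.Agent.S42x.QuadRepB86

set_option autoImplicit false
set_option linter.style.haveILetI false

namespace Fermat.Agent.S31x

open scoped TensorProduct
open Fermat.Agent.S42x

section Burnside

variable {K : Type} [Field K] [IsAlgClosed K] {V : Type} [AddCommGroup V] [Module K V]
  [FiniteDimensional K V] {G : Type*} [Group G]

/-- **Burnside** for an irreducible representation over an algebraically closed field. -/
theorem s31a77_burnside_span (ρ : G →* Module.End K V) [Nontrivial V]
    (hirr : ∀ W : Submodule K V, (∀ g : G, ∀ x ∈ W, ρ g x ∈ W) → W = ⊥ ∨ W = ⊤) :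
    Submodule.span K (Set.range ρ) = ⊤ := by
  classical
  set S : Subalgebra K (Module.End K V) := Algebra.adjoin K (Set.range ρ) with hS
  have hρS : ∀ g : G, ρ g ∈ S := fun g => Algebra.subset_adjoin ⟨g, rfl⟩
  -- `V` is a simple `S`-module
  have hsimpleV : IsSimpleModule S V := by
    rw [isSimpleModule_iff]
    refine { exists_pair_ne := ⟨⊥, ⊤, bot_ne_top⟩, eq_bot_or_eq_top := fun W => ?_ }
    have hW : ∀ g : G, ∀ x ∈ W.restrictScalars K, ρ g x ∈ W.restrictScalars K := by
      intro g x hx
      have : (⟨ρ g, hρS g⟩ : S) • x ∈ W := W.smul_mem _ hx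
      exact this
    rcases hirr (W.restrictScalars K) hW with h | h
    · exact Or.inl ((Submodule.restrictScalars_eq_bot_iff _ _ _).mp h)
    · exact Or.inr ((Submodule.restrictScalars_eq_top_iff _ _ _).mp h)
  haveI : IsSimpleModule S (⊤ : Submodule S V) :=
    IsSimpleModule.congr (Submodule.topEquiv (R := S) (M := V))
  -- every endomorphism lies in `S`
  have hall : ∀ f : Module.End K V, f ∈ S := by
    intro f
    let f' : (⊤ : Submodule S V) →ₗ[K] (⊤ : Submodule S V) :=
      { toFun := fun u => ⟨f u.1, Submodule.mem_top⟩
        map_add' := fun u v => Subtype.ext (map_add f u.1 v.1)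
        map_smul' := fun c u => Subtype.ext (map_smul f c u.1) }
    obtain ⟨a, ha⟩ := qd86_burnside (K := K) (A := S) (V := V) ⊤ f'
    have : (a : Module.End K V) = f := by
      refine LinearMap.ext fun v => ?_
      have := congrArg Subtype.val (ha ⟨v, Submodule.mem_top⟩)
      exact this
    rw [← this]
    exact a.2
  have hStop : S = ⊤ := eq_top_iff.mpr fun f _ => hall f
  have hspan := Algebra.adjoin_eq_span K (Set.range ρ)
  rw [← hS, hStop] at hspan
  have hcl : (Submonoid.closure (Set.range ρ) : Set (Module.End K V)) = Set.range ρ := by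
    rw [← MonoidHom.coe_mrange, Submonoid.closure_eq]
  rw [hcl] at hspan
  rw [← hspan]
  rfl

end Burnside

section Descent

variable {k : Type*} [Field k] {V : Type*} [AddCommGroup V] [Module k V] [FiniteDimensional k V]
  {G : Type*} [Group G]

/-- descent of "the image spans `End`" along a field extension. -/
theorem s31a77_span_descent (ρ : G →* Module.End k V) (K : Type*) [Field K] [Algebra k K]
    (hK : Submodule.span K (Set.range fun g : G => (ρ g).baseChange K) = ⊤) :
    Submodule.span k (Set.range ρ) = ⊤ := by
  classical
  set B : Submodule k (Module.End k V) := Submodule.span k (Set.range ρ) with hB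
  set d := Module.finrank k V with hd
  let b := Module.finBasis k B
  let t : Fin (Module.finrank k B) → Module.End K (K ⊗[k] V) := fun i => (b i : Module.End k V).baseChange K
  -- every base-changed element of `B` lies in the `K`-span of `t`
  have hle : ∀ Y ∈ B, Y.baseChange K ∈ Submodule.span K (Set.range t) := by
    intro Y hY
    have hrepr : Y = ∑ i, (b.repr ⟨Y, hY⟩ i) • (b i : Module.End k V) := by
      have h0 := congrArg Subtype.val (b.sum_repr ⟨Y, hY⟩)
      simp only [Submodule.coe_sum, Submodule.coe_smul] at h0
      exact h0.symm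
    rw [hrepr]
    have hsum : (∑ i, (b.repr ⟨Y, hY⟩ i) • (b i : Module.End k V)).baseChange K =
        ∑ i, (algebraMap k K (b.repr ⟨Y, hY⟩ i)) • t i := by
      have h1 := map_sum (LinearMap.baseChangeHom k K V V)
        (fun i => (b.repr ⟨Y, hY⟩ i) • (b i : Module.End k V)) Finset.univ
      simp only [LinearMap.baseChangeHom_apply] at h1
      rw [h1]
      refine Finset.sum_congr rfl fun i _ => ?_
      rw [LinearMap.baseChange_smul, algebraMap_smul]
    rw [hsum]
    exact Submodule.sum_mem _ fun i _ => Submodule.smul_mem _ _ (Submodule.subset_span ⟨i, rfl⟩)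
  have htop : Submodule.span K (Set.range t) = ⊤ := by
    rw [eq_top_iff, ← hK]
    refine Submodule.span_le.mpr ?_
    rintro _ ⟨g, rfl⟩
    exact hle (ρ g) (Submodule.subset_span ⟨g, rfl⟩)
  have h1 : Module.finrank K (Module.End K (K ⊗[k] V)) ≤ Module.finrank k B := by
    have h2 := finrank_range_le_card (R := K) t
    rw [Set.finrank, htop, finrank_top, Fintype.card_fin] at h2
    exact h2
  have h3 : Module.finrank K (Module.End K (K ⊗[k] V)) = d * d := by
    rw [Module.finrank_linearMap, Module.finrank_baseChange]
  have h4 : Module.finrank k (Module.End k V) = d * d := by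
    rw [Module.finrank_linearMap]
  refine Submodule.eq_top_of_finrank_eq (le_antisymm (Submodule.finrank_le B) ?_)
  rw [h4, ← h3]
  exact h1

end Descent

/-- **Absolutely irreducible ⟹ the image spans `End_k(V)`**. -/
theorem s31a77_span_of_absIrr {k : Type} [Field k] {V : Type} [AddCommGroup V] [Module k V]
    [FiniteDimensional k V] [Nontrivial V] {G : Type*} [Group G] (ρ : G →* Module.End k V)
    (K : Type) [Field K] [Algebra k K] [IsAlgClosed K]
    (hirr : ∀ W : Submodule K (K ⊗[k] V),
      (∀ g : G, ∀ x ∈ W, (ρ g).baseChange K x ∈ W) → W = ⊥ ∨ W = ⊤) :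
    Submodule.span k (Set.range ρ) = ⊤ := by
  let ρK : G →* Module.End K (K ⊗[k] V) :=
    { toFun := fun g => (ρ g).baseChange K
      map_one' := by rw [map_one, LinearMap.baseChange_one]
      map_mul' := fun g h => by rw [map_mul, LinearMap.baseChange_mul] }
  haveI : Nontrivial (K ⊗[k] V) := by
    have hpos : 0 < Module.finrank K (K ⊗[k] V) := by
      rw [Module.finrank_baseChange]; exact Module.finrank_pos
    exact Module.nontrivial_of_finrank_pos hpos
  have h := s31a77_burnside_span ρK hirr
  exact s31a77_span_descent ρ K h

end Fermat.Agent.S31x
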