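/-
S31 scouting (route doc `ROUTE_S31_helper77`), block S31-P2b : trace form + Nakayama.  (helper77, prefix `s31b77_`.)
Mathlib only.

`T` a commutative (local) ring, `V` a finite free `T`-module, `k` the residue field.
* `s31b77_eq_zero_of_trace` : `tr (Y * X) = 0` for all `Y` ⟹ `X = 0` (perfectness of the trace form).
* `s31b77_mem_smul_top`     : an endomorphism whose reduction `k ⊗ W` vanishes lies in `𝔪 • End_T(V)`.
* `s31b77_eq_top`           : Nakayama: a `T`-submodule `R ≤ End_T(V)` whose reductions span `End_k(k ⊗ V)`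
                               is everything.
* `s31b77_rho_eq_one`       : `ρ : G →* End_T(V)` with residually spanning image and `tr ρ(g σ) = tr ρ(g)`
                               for all `g` ⟹ `ρ σ = 1`.
-/
import Mathlib

set_option autoImplicit false

namespace Fermat.Agent.S31x

open scoped TensorProduct

section TraceForm

variable {T V : Type*} [CommRing T] [AddCommGroup V] [Module T V] [Module.Free T V]
  [Module.Finite T V]

/-- perfectness of the trace form on `End_T(V)` (one-sided version). -/
theorem s31b77_eq_zero_of_trace (X : Module.End T V)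
    (h : ∀ Y : Module.End T V, LinearMap.trace T V (Y * X) = 0) : X = 0 := by
  refine LinearMap.ext fun v => ?_
  rw [LinearMap.zero_apply, ← Module.forall_dual_apply_eq_zero_iff T]
  intro f
  have h1 := h (dualTensorHom T V V (f ⊗ₜ[T] v))
  have h2 : dualTensorHom T V V (f ⊗ₜ[T] v) * X = dualTensorHom T V V ((f ∘ₗ X) ⊗ₜ[T] v) := by
    refine LinearMap.ext fun w => ?_
    simp [dualTensorHom_apply]
  rw [h2, LinearMap.trace_eq_contract_apply, contractLeft_apply] at h1
  simpa using h1

end TraceForm

section Nakayama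

variable {T V : Type*} [CommRing T] [IsLocalRing T] [AddCommGroup V] [Module T V]
  [Module.Free T V] [Module.Finite T V]

local notation "𝔪" => IsLocalRing.maximalIdeal T
local notation "k" => IsLocalRing.ResidueField T

/-- an endomorphism with vanishing reduction lies in `𝔪 • End`. -/
theorem s31b77_mem_smul_top (W : Module.End T V) (hW : W.baseChange k = 0) :
    W ∈ 𝔪 • (⊤ : Submodule T (Module.End T V)) := by
  classical
  let b := Module.Free.chooseBasis T V
  have hM : (LinearMap.toMatrix b b W).map (algebraMap T k) = 0 := by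
    rw [← LinearMap.toMatrix_baseChange, hW, map_zero]
  have hentry : ∀ i j, LinearMap.toMatrix b b W i j ∈ 𝔪 := by
    intro i j
    have := congrFun (congrFun hM i) j
    rw [Matrix.map_apply, Matrix.zero_apply, IsLocalRing.ResidueField.algebraMap_eq,
      IsLocalRing.residue_eq_zero_iff] at this
    exact this
  have hsum : W = ∑ i, ∑ j, (LinearMap.toMatrix b b W i j) •
      Matrix.toLin b b (Matrix.single i j (1 : T)) := by
    apply (LinearMap.toMatrix b b).injective
    conv_lhs => rw [Matrix.matrix_eq_sum_single (LinearMap.toMatrix b b W)]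
    simp only [map_sum, map_smul, LinearMap.toMatrix_toLin]
    refine Finset.sum_congr rfl fun i _ => Finset.sum_congr rfl fun j _ => ?_
    rw [Matrix.smul_single, smul_eq_mul, mul_one]
  rw [hsum]
  refine Submodule.sum_mem _ fun i _ => Submodule.sum_mem _ fun j _ => ?_
  exact Submodule.smul_mem_smul (hentry i j) Submodule.mem_top

/-- **Nakayama** for submodules of `End_T(V)`. -/
theorem s31b77_eq_top (R : Submodule T (Module.End T V))
    (hsurj : ∀ Z : Module.End T V, ∃ Y ∈ R, Y.baseChange k = Z.baseChange k) : R = ⊤ := by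
  rw [eq_top_iff]
  refine Submodule.le_of_le_smul_of_le_jacobson_bot (I := 𝔪) Module.Finite.fg_top ?_ ?_
  · rw [IsLocalRing.jacobson_eq_maximalIdeal ⊥ bot_ne_top]
  · intro Z _
    obtain ⟨Y, hY, hYZ⟩ := hsurj Z
    have hW : (Z - Y).baseChange k = 0 := by
      rw [LinearMap.baseChange_sub, hYZ]
      exact sub_self (Z.baseChange k)
    have : Z = Y + (Z - Y) := by abel
    rw [this]
    exact Submodule.add_mem_sup hY (s31b77_mem_smul_top _ hW)

omit [Module.Free T V] [Module.Finite T V] in
/-- reductions of a `T`-submodule form a `k`-subspace: spanning ⟹ surjective. -/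
theorem s31b77_surj_of_span (R : Submodule T (Module.End T V))
    (hspan : Submodule.span k ((fun Y : Module.End T V => Y.baseChange k) '' (R : Set _)) = ⊤)
    (Z : Module.End T V) : ∃ Y ∈ R, Y.baseChange k = Z.baseChange k := by
  have hmem : Z.baseChange k ∈
      Submodule.span k ((fun Y : Module.End T V => Y.baseChange k) '' (R : Set _)) := by
    rw [hspan]; exact Submodule.mem_top
  refine Submodule.span_induction (p := fun x _ => ∃ Y ∈ R, Y.baseChange k = x)
    ?_ ?_ ?_ ?_ hmem
  · rintro _ ⟨Y, hY, rfl⟩
    exact ⟨Y, hY, rfl⟩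
  · exact ⟨0, R.zero_mem, LinearMap.baseChange_zero⟩
  · rintro x y _ _ ⟨Y, hY, rfl⟩ ⟨Y', hY', rfl⟩
    exact ⟨Y + Y', R.add_mem hY hY', LinearMap.baseChange_add _ _⟩
  · rintro c x _ ⟨Y, hY, rfl⟩
    obtain ⟨c', rfl⟩ := IsLocalRing.residue_surjective c
    refine ⟨c' • Y, R.smul_mem c' hY, ?_⟩
    rw [LinearMap.baseChange_smul]
    refine LinearMap.ext fun w => ?_
    rw [LinearMap.smul_apply, LinearMap.smul_apply]
    rw [← IsLocalRing.ResidueField.algebraMap_eq, algebraMap_smul]

/-- **Step B of S31 (abstract)**. -/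
theorem s31b77_rho_eq_one {G : Type*} [Group G] (ρ : G →* Module.End T V)
    (hspan : Submodule.span k (Set.range fun g : G => (ρ g).baseChange k) = ⊤)
    (σ : G) (h : ∀ g : G, LinearMap.trace T V (ρ (g * σ)) = LinearMap.trace T V (ρ g)) :
    ρ σ = 1 := by
  set R : Submodule T (Module.End T V) := Submodule.span T (Set.range ρ) with hR
  have hRtop : R = ⊤ := by
    refine s31b77_eq_top R (s31b77_surj_of_span R ?_)
    rw [eq_top_iff, ← hspan]
    refine Submodule.span_mono ?_
    rintro _ ⟨g, rfl⟩
    exact ⟨ρ g, Submodule.subset_span ⟨g, rfl⟩, rfl⟩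
  have hX : ρ σ - 1 = 0 := by
    refine s31b77_eq_zero_of_trace _ fun Y => ?_
    have hY : Y ∈ R := by rw [hRtop]; exact Submodule.mem_top
    refine Submodule.span_induction (p := fun Y _ => LinearMap.trace T V (Y * (ρ σ - 1)) = 0)
      ?_ ?_ ?_ ?_ hY
    · rintro _ ⟨g, rfl⟩
      rw [mul_sub, mul_one, ← map_mul, map_sub, h g, sub_self]
    · rw [zero_mul, map_zero]
    · intro x y _ _ hx hy
      rw [add_mul, map_add, hx, hy, add_zero]
    · intro c x _ hx
      rw [smul_mul_assoc, map_smul, hx, smul_zero]
  exact sub_eq_zero.mp hX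

end Nakayama

end Fermat.Agent.S31x
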