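/-
S31 scouting (route doc `ROUTE_S31_helper77`), block S31-P2 (STEP B, complete): for a `GaloisRepAdic` with
absolutely irreducible residual representation, an element `σ` with `tr ρ(g σ) = tr ρ(g)` for all `g`
acts trivially.  (helper77, prefix `s31g77_`.)
-/
import Mathlib
import Fermat.Prelude.Def_GaloisRep_Adic
import Fermat.Agent.S31x.TraceForm77
import Fermat.Agent.S31x.AbsIrrSpan77

set_option autoImplicit false

namespace Fermat.Agent.S31x

open scoped TensorProduct

variable {T : Type} [CommRing T] [IsLocalRing T]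

/-- the reductions of `ρ(G)` span `End_k(k ⊗ V)` -/
theorem s31g77_residual_span (ρ : GaloisRepAdic T) (h : ρ.residual.IsAbsolutelyIrreducible) :
    Submodule.span (IsLocalRing.ResidueField T)
      (Set.range fun g : AlgebraicClosure ℚ ≃ₐ[ℚ] AlgebraicClosure ℚ =>
        (ρ.ρ g).baseChange (IsLocalRing.ResidueField T)) = ⊤ := by
  have : Nontrivial ρ.residual.V := by
    have hpos : 0 < Module.finrank (IsLocalRing.ResidueField T) ρ.residual.V := by
      rw [ρ.residual.finrank_eq]; norm_num
    exact Module.nontrivial_of_finrank_pos hpos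
  exact s31a77_span_of_absIrr ρ.residual.ρ (AlgebraicClosure (IsLocalRing.ResidueField T)) h

/-- **STEP B of S31**. -/
theorem s31g77_eq_one_of_trace (ρ : GaloisRepAdic T) (h : ρ.residual.IsAbsolutelyIrreducible)
    (σ : AlgebraicClosure ℚ ≃ₐ[ℚ] AlgebraicClosure ℚ)
    (htr : ∀ g : AlgebraicClosure ℚ ≃ₐ[ℚ] AlgebraicClosure ℚ,
      LinearMap.trace T ρ.V (ρ.ρ (g * σ)) = LinearMap.trace T ρ.V (ρ.ρ g)) :
    ρ.ρ σ = 1 :=
  s31b77_rho_eq_one ρ.ρ (s31g77_residual_span ρ h) σ htr

end Fermat.Agent.S31x
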