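/-
S31 project (architect helper77), TOP-A : STEP A of `ROUTE_S31_helper77` for the frozen datum, from
the two remaining junctions stated as hypotheses:

* `s31t77_LatticeHyp N`       = output of A5 + A6 (helper76 `s31i76_lattice`): the Betti Dickson
                                 difference maps `lrL N` into `m • lrL N`;
* `s31t77_TransferHyp S π p`  = output of C2 + C3 (helper71 `tr71_`): such a difference has `π`-image in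
                                 `𝔪_T ^ (k - c)`.

`s31t77_stepA` : for `σ` in an inertia group at `q ∉ S`: `tr ρ(g σ) = tr ρ(g)` for every `g`.
`s31t77_unramified` : `ρ σ = 1` (with Step B `s31g77_eq_one_of_trace`).
(prefix `s31t77_`.)
-/
import Mathlib
import Fermat.Prelude.Def_CuspForm_HeckeGaloisRepDatum
import Fermat.Agent.S31x.StepA91
import Fermat.Agent.S31x.FieldE98
import Fermat.Agent.S31x.StepB77
import Fermat.Agent.S41x.FDnDictFinal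
import Fermat.Agent.S41x.LRTopDefs
import Fermat.Agent.S42x.ESlFinal
import Fermat.Agent.S42x.R5Final81

set_option autoImplicit false

namespace Fermat.Agent.S31x

open Polynomial CuspForm ModularCurve ValuationSubring Fermat.Agent.S41x Fermat.Agent.S42x

local notation "Qbar" => AlgebraicClosure ℚ
local notation "GQ" => (AlgebraicClosure ℚ ≃ₐ[ℚ] AlgebraicClosure ℚ)

/-- one-variable Dickson polynomial `D_j(X, e) ∈ ℤ[X]` (same body as helper76's `s31i76_D`). -/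
noncomputable def s31t77_D (e : ℤ) (j : ℕ) : ℤ[X] := qpw_dickson (X : ℤ[X]) (C e) j

/-- output of A5 + A6. -/
def s31t77_LatticeHyp (N : ℕ) [NeZero N] : Prop :=
  ∀ m : ℕ, 0 < m → ∀ ℓ ℓ' : Nat.Primes, ¬ (ℓ : ℕ) ∣ N → ¬ (ℓ : ℕ) ∣ m → ¬ (ℓ' : ℕ) ∣ N →
    ¬ (ℓ' : ℕ) ∣ m → ∀ A A' : ValuationSubring Qbar, A.LiesOverPrime ℓ → A'.LiesOverPrime ℓ' →
    ∀ φ φ' : GQ, A.IsFrobeniusAt φ ℓ → A'.IsFrobeniusAt φ' ℓ' → ∀ j j' : ℕ,
    (∀ x : JZero N, m • x = 0 → (φ ^ j) • x = (φ' ^ j') • x) →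
    (ℓ : ℕ) ^ j ≡ (ℓ' : ℕ) ^ j' [MOD m] →
    ∀ v : lrL N, ∃ w : lrL N,
      (aeval (lrtT N ℓ) (s31t77_D ((ℓ : ℕ) : ℤ) j) -
        aeval (lrtT N ℓ') (s31t77_D ((ℓ' : ℕ) : ℤ) j')) v = (m : ℤ) • w

/-- output of C2 + C3. -/
def s31t77_TransferHyp {N : ℕ} [NeZero N] (S : Finset ℕ) {T : Type} [CommRing T] [IsLocalRing T]
    (π : heckeAlgebra N 2 (↑S : Set ℕ) →+* T) (p : ℕ) : Prop :=
  ∃ c : ℕ, ∀ (k : ℕ) (ℓ ℓ' : Nat.Primes) (hℓN : ¬ (ℓ : ℕ) ∣ N) (hℓS : (ℓ : ℕ) ∉ (↑S : Set ℕ))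
    (hℓ'N : ¬ (ℓ' : ℕ) ∣ N) (hℓ'S : (ℓ' : ℕ) ∉ (↑S : Set ℕ)) (j j' : ℕ),
    (∀ v : lrL N, ∃ w : lrL N,
      (aeval (lrtT N ℓ) (s31t77_D ((ℓ : ℕ) : ℤ) j) -
        aeval (lrtT N ℓ') (s31t77_D ((ℓ' : ℕ) : ℤ) j')) v = ((p : ℤ) ^ k) • w) →
    qpw_dickson (π (heckeAlgebra.T ℓ.2 hℓN hℓS)) (((ℓ : ℕ) : T)) j -
      qpw_dickson (π (heckeAlgebra.T ℓ'.2 hℓ'N hℓ'S)) (((ℓ' : ℕ) : T)) j' ∈
        IsLocalRing.maximalIdeal T ^ (k - c)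

section Top

variable {p : ℕ} {N : ℕ} [NeZero N] {S : Finset ℕ}
  {𝒪 : Type} [CommRing 𝒪] [IsDomain 𝒪] [IsDiscreteValuationRing 𝒪]
  [IsAdicComplete (IsLocalRing.maximalIdeal 𝒪) 𝒪]
  {θ : CuspForm.heckeAlgebra N 2 (↑S : Set ℕ) →+* IsLocalRing.ResidueField 𝒪}
  {T : Type} [CommRing T] [IsLocalRing T] [IsNoetherianRing T]
  [IsAdicComplete (IsLocalRing.maximalIdeal T) T] [Algebra 𝒪 T] [IsLocalHom (algebraMap 𝒪 T)]
  [Module.Finite 𝒪 T] [Module.Free 𝒪 T]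

/-- **STEP A of S31**. -/
theorem s31t77_stepA (hp : p.Prime) (hpS : p ∈ S)
    (hNS : ∀ q : ℕ, q.Prime → q ∣ N → q ∈ S)
    (H : CuspForm.HeckeGaloisRepDatum N (↑S : Set ℕ) 𝒪 θ T)
    (hLat : s31t77_LatticeHyp N) (hTr : s31t77_TransferHyp S H.π p)
    (q : ℕ) (hq : q.Prime) (hqS : q ∉ S)
    (P : ValuationSubring Qbar) (hP : P.LiesOverPrime q) (σ : GQ)
    (hσ : σ ∈ P.inertiaSubgroupIn ℚ) (g : GQ) :
    LinearMap.trace T H.ρ.V (H.ρ.ρ (g * σ)) = LinearMap.trace T H.ρ.V (H.ρ.ρ g) := by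
  classical
  have hV : Module.finrank T H.ρ.V = 2 := H.ρ.finrank_eq
  refine sta91_eq_of_forall_mem (IsLocalRing.maximalIdeal T)
    (fun x hx => sta91_sep_of_hausdorff (IsLocalRing.maximalIdeal T) x hx) (fun n => ?_)
  obtain ⟨c, hc⟩ := hTr
  have hm : 0 < p ^ (n + c) := pow_pos hp.pos _
  haveI : NeZero (p ^ (n + c)) := ⟨hm.ne'⟩
  obtain ⟨Ln, hLn, hcont⟩ := H.ρ.isAdicContinuous n
  have hfin : {x : JZero N | ((p ^ (n + c) : ℕ) : ℤ) • x = 0}.Finite := by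
    have h := jtf85_finite N (p ^ (n + c)) hm.ne' (r5f81_R3_zero N (p ^ (n + c)) hm)
    refine h.subset fun x hx => ?_
    have hx' : ((p ^ (n + c) : ℕ) : ℤ) • x = 0 := hx
    rw [natCast_zsmul] at hx'
    exact hx'
  obtain ⟨F, hFfd, hLF, hFstab, hFJ, hFω⟩ := fe98_exists_field N (p ^ (n + c)) hfin Ln hLn
  -- the auxiliary modulus excluding `N`, `S` and `p`
  have hprodpos : 0 < ∏ s ∈ S, (if s = 0 then 1 else s) := by
    refine Finset.prod_pos fun s _ => ?_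
    split_ifs with h
    · exact Nat.one_pos
    · exact Nat.pos_of_ne_zero h
  have hM'pos : 0 < N * (∏ s ∈ S, (if s = 0 then 1 else s)) * p ^ (n + c) :=
    Nat.mul_pos (Nat.mul_pos (NeZero.pos N) hprodpos) hm
  have hbad : ∀ ℓ : ℕ, ℓ.Prime →
      ¬ ℓ ∣ N * (∏ s ∈ S, (if s = 0 then 1 else s)) * p ^ (n + c) →
      ¬ ℓ ∣ N ∧ ℓ ∉ (↑S : Set ℕ) ∧ ¬ ℓ ∣ p ^ (n + c) := by
    intro ℓ hℓ hℓM
    refine ⟨fun h => hℓM ?_, fun h => hℓM ?_, fun h => hℓM ?_⟩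
    · exact Dvd.dvd.mul_right (Dvd.dvd.mul_right h _) _
    · have h0 : ℓ ∈ S := Finset.mem_coe.mp h
      have h1 : (if ℓ = 0 then 1 else ℓ) = ℓ := if_neg hℓ.ne_zero
      have h2 : ℓ ∣ ∏ s ∈ S, (if s = 0 then 1 else s) := by
        have := Finset.dvd_prod_of_mem (fun s : ℕ => if s = 0 then 1 else s) h0
        rwa [h1] at this
      exact Dvd.dvd.mul_right (Dvd.dvd.mul_left h2 _) _
    · exact Dvd.dvd.mul_left h _
  obtain ⟨ℓ, A, φ, j, hℓ, hℓM, hA, hφ, hgφ⟩ :=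
    fdndi_exists_frobenius F hFfd hFstab g _ hM'pos
  obtain ⟨ℓ', A', φ', j', hℓ', hℓ'M, hA', hφ', hgφ'⟩ :=
    fdndi_exists_frobenius F hFfd hFstab (g * σ) _ hM'pos
  obtain ⟨hℓN, hℓS, hℓm⟩ := hbad ℓ hℓ hℓM
  obtain ⟨hℓ'N, hℓ'S, hℓ'm⟩ := hbad ℓ' hℓ' hℓ'M
  -- facts on `q`
  have hqN : ¬ q ∣ N := fun h => hqS (hNS q hq h)
  have hqp : q ≠ p := fun h => hqS (h ▸ hpS)
  have hqm : ¬ q ∣ p ^ (n + c) := fun h =>
    hqp ((Nat.prime_dvd_prime_iff_eq hq hp).mp (hq.dvd_of_dvd_pow h))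
  have hσω : fin_omega0 (p ^ (n + c)) σ = 1 := fe98_omega0_inertia hq hqm P hP σ hσ
  have hmod : ℓ ^ j ≡ ℓ' ^ j' [MOD p ^ (n + c)] :=
    fe98_pow_modEq hFω hσω hℓ hℓm hℓ' hℓ'm A A' hA hA' φ φ' hφ hφ' j j' hgφ hgφ'
  -- `g` and `g σ` act in the same way on the torsion
  have hsame : ∀ x : JZero N, (p ^ (n + c)) • x = 0 → (φ ^ j) • x = (φ' ^ j') • x := by
    intro x hx
    have hxz : ((p ^ (n + c) : ℕ) : ℤ) • x = 0 := by rw [natCast_zsmul]; exact hx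
    have h1 : g • x = (φ ^ j) • x := fe98_smul_eq_of_mem hFJ hgφ x hxz
    have h2 : (g * σ) • x = (φ' ^ j') • x := fe98_smul_eq_of_mem hFJ hgφ' x hxz
    have h3 : σ • x = x := esl_inertia_trivial N q hq hqN P hP (p ^ (n + c)) hqm x hx σ hσ
    rw [← h1, ← h2, mul_smul, h3]
  -- lattice statement
  have hlat := hLat (p ^ (n + c)) hm ⟨ℓ, hℓ⟩ ⟨ℓ', hℓ'⟩ hℓN hℓm hℓ'N hℓ'm A A' hA hA' φ φ' hφ hφ'
    j j' hsame hmod
  -- transfer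
  have hD := hc (n + c) ⟨ℓ, hℓ⟩ ⟨ℓ', hℓ'⟩ hℓN hℓS hℓ'N hℓ'S j j' (by
    intro v
    obtain ⟨w, hw⟩ := hlat v
    refine ⟨w, ?_⟩
    rw [hw]
    push_cast
    rfl)
  rw [Nat.add_sub_cancel] at hD
  -- T-side
  have hu : ∀ u : GQ, u ∈ F.fixingSubgroup → ∀ v : H.ρ.V,
      H.ρ.ρ u v - v ∈ (IsLocalRing.maximalIdeal T ^ n) • (⊤ : Submodule T H.ρ.V) := by
    intro u hu v
    refine hcont u (fun x hx => ?_) v
    exact (IntermediateField.mem_fixingSubgroup_iff _ u).mp hu x (hLF hx)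
  have hu1 : (φ ^ j)⁻¹ * g ∈ F.fixingSubgroup := by
    have := F.fixingSubgroup.inv_mem hgφ
    rwa [mul_inv_rev, inv_inv] at this
  have hu2 : (φ' ^ j')⁻¹ * (g * σ) ∈ F.fixingSubgroup := by
    have := F.fixingSubgroup.inv_mem hgφ'
    rwa [mul_inv_rev, inv_inv] at this
  exact sta91_congr hV _ H.ρ.ρ g σ φ φ' ((φ ^ j)⁻¹ * g) ((φ' ^ j')⁻¹ * (g * σ)) j j'
    (H.π (heckeAlgebra.T hℓ hℓN hℓS)) ((ℓ : ℕ) : T) (H.π (heckeAlgebra.T hℓ' hℓ'N hℓ'S))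
    ((ℓ' : ℕ) : T)
    (H.charpoly_frob ℓ hℓ hℓN hℓS A hA φ hφ) (H.charpoly_frob ℓ' hℓ' hℓ'N hℓ'S A' hA' φ' hφ')
    (by group) (by group) (hu _ hu1) (hu _ hu2) hD

/-- **S31 from the two junctions**. -/
theorem s31t77_unramified (hp : p.Prime) (hpS : p ∈ S)
    (hNS : ∀ q : ℕ, q.Prime → q ∣ N → q ∈ S)
    (H : CuspForm.HeckeGaloisRepDatum N (↑S : Set ℕ) 𝒪 θ T)
    (hLat : s31t77_LatticeHyp N) (hTr : s31t77_TransferHyp S H.π p)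
    (q : ℕ) (hq : q.Prime) (hqS : q ∉ S) : H.ρ.IsUnramifiedAt q := by
  intro P hP σ hσ
  exact s31g77_eq_one_of_trace H.ρ H.residual_absIrr σ
    (fun g => s31t77_stepA hp hpS hNS H hLat hTr q hq hqS P hP σ hσ g)

end Top

end Fermat.Agent.S31x
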