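/-
S31 scouting (route doc `ROUTE_S31_helper77`), block S31-C2 : Artin–Rees transfer.  (helper77, prefix `s31c77_`.)
Mathlib only.

* `s31c77_artin_rees`   : `W ≤ E` a `ℤ`-submodule of a finite `ℤ`-module; there is `c` such that an element of
                           `W` divisible by `p ^ m` in `E` is `p ^ (m - c)` times an element of `W`.
* `s31c77_end_transfer` : the same for `E = End_ℤ(L)`, divisibility tested on values.
* `s31c77_hom_transfer` : ring-hom form: `φ : A →+* End_ℤ(L)`; if `φ t` maps `L` into `p ^ m L` then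
                           `φ t = φ (p ^ (m - c) * s)` for some `s : A`.
-/
import Mathlib

set_option autoImplicit false

namespace Fermat.Agent.S31x

/-- **Artin–Rees** for a sublattice, in elementwise form. -/
theorem s31c77_artin_rees {E : Type*} [AddCommGroup E] [Module.Finite ℤ E] (W : Submodule ℤ E)
    (p : ℕ) :
    ∃ c : ℕ, ∀ m : ℕ, ∀ t ∈ W, (∃ e : E, t = ((p : ℤ) ^ m) • e) →
      ∃ s ∈ W, t = ((p : ℤ) ^ (m - c)) • s := by
  obtain ⟨k, hk⟩ := Ideal.exists_pow_inf_eq_pow_smul (Ideal.span {(p : ℤ)}) W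
  refine ⟨k, fun m t ht ⟨e, he⟩ => ?_⟩
  by_cases hmk : k ≤ m
  · have hmem : t ∈ (Ideal.span {(p : ℤ)}) ^ m • (⊤ : Submodule ℤ E) ⊓ W := by
      refine ⟨?_, ht⟩
      rw [Ideal.span_singleton_pow, Submodule.ideal_span_singleton_smul, he]
      exact Submodule.smul_mem_pointwise_smul _ _ _ Submodule.mem_top
    rw [hk m hmk, Ideal.span_singleton_pow, Submodule.ideal_span_singleton_smul] at hmem
    obtain ⟨s, hs, rfl⟩ := (Submodule.mem_smul_pointwise_iff_exists _ _ _).mp hmem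
    exact ⟨s, hs.2, rfl⟩
  · have h0 : m - k = 0 := by omega
    exact ⟨t, ht, by rw [h0, pow_zero, one_smul]⟩

/-- divisibility of an endomorphism of a torsion-free module can be tested on values. -/
theorem s31c77_end_dvd_of_values {L : Type*} [AddCommGroup L]
    (htf : ∀ (n : ℤ) (v : L), n ≠ 0 → n • v = 0 → v = 0)
    (n : ℤ) (hn : n ≠ 0) (t : Module.End ℤ L) (h : ∀ v : L, ∃ w : L, t v = n • w) :
    ∃ e : Module.End ℤ L, t = n • e := by
  classical
  choose f hf using h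
  have hinj : ∀ a b : L, n • a = n • b → a = b := by
    intro a b hab
    have : n • (a - b) = 0 := by rw [smul_sub, hab, sub_self]
    exact sub_eq_zero.mp (htf n _ hn this)
  refine ⟨{ toFun := f, map_add' := fun a b => ?_, map_smul' := fun c a => ?_ }, ?_⟩
  · apply hinj
    rw [← hf, smul_add, ← hf, ← hf, map_add]
  · apply hinj
    rw [RingHom.id_apply, ← hf, smul_comm n c, ← hf, map_smul]
  · refine LinearMap.ext fun v => ?_
    rw [LinearMap.smul_apply]
    exact hf v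

/-- **Artin–Rees transfer** for a `ℤ`-submodule of `End_ℤ(L)`. -/
theorem s31c77_end_transfer {L : Type*} [AddCommGroup L] [Module.Finite ℤ L] [Module.Free ℤ L]
    (W : Submodule ℤ (Module.End ℤ L)) (p : ℕ) (hp : p ≠ 0) :
    ∃ c : ℕ, ∀ m : ℕ, ∀ t ∈ W, (∀ v : L, ∃ w : L, t v = ((p : ℤ) ^ m) • w) →
      ∃ s ∈ W, t = ((p : ℤ) ^ (m - c)) • s := by
  obtain ⟨c, hc⟩ := s31c77_artin_rees W p
  refine ⟨c, fun m t ht h => hc m t ht ?_⟩
  have hp' : ((p : ℤ) ^ m) ≠ 0 := pow_ne_zero _ (by exact_mod_cast hp)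
  refine s31c77_end_dvd_of_values (fun n v hn hv => ?_) _ hp' t h
  exact (smul_eq_zero.mp hv).resolve_left hn

/-- **Ring-hom form**: `φ : A →+* End_ℤ(L)`. -/
theorem s31c77_hom_transfer {A : Type*} [CommRing A] {L : Type*} [AddCommGroup L]
    [Module.Finite ℤ L] [Module.Free ℤ L] (φ : A →+* Module.End ℤ L) (p : ℕ) (hp : p ≠ 0) :
    ∃ c : ℕ, ∀ (m : ℕ) (t : A), (∀ v : L, ∃ w : L, φ t v = ((p : ℤ) ^ m) • w) →
      ∃ s : A, φ t = φ ((p : A) ^ (m - c) * s) := by
  obtain ⟨c, hc⟩ := s31c77_end_transfer (L := L)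
    (AddSubgroup.toIntSubmodule φ.range.toAddSubgroup) p hp
  refine ⟨c, fun m t h => ?_⟩
  obtain ⟨s, ⟨s', rfl⟩, hs⟩ := hc m (φ t) ⟨t, rfl⟩ h
  refine ⟨s', ?_⟩
  rw [hs, map_mul, map_pow, map_natCast, zsmul_eq_mul]
  push_cast
  rfl

end Fermat.Agent.S31x
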