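/-
S31 project (architect helper77), block TRANSFER (twin of helper71's `Transfer71`), helper34,
prefix `tr34_`.

**C2 + C3 + Dickson compatibility.**  Let `π : heckeAlgebra N 2 S →+* T` be a ring homomorphism to a
local ring `T` with `(p : T) ∈ 𝔪_T`, `p ≠ 0`.  There is a constant `c` such that, for all `k`, all good
primes `ℓ, ℓ'` (`ℓ ∤ N`, `ℓ ∉ S`) and all `j, j'`: if the Betti Dickson difference
`D_j(lrtT N ℓ, ℓ) - D_{j'}(lrtT N ℓ', ℓ')` maps the lattice `lrL N` into `p ^ k • lrL N`, then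
`D_j(π T_ℓ, ℓ) - D_{j'}(π T_ℓ', ℓ') ∈ 𝔪_T ^ (k - c)`.

Proof: the difference lives in helper1's pair algebra `hpa1_A N S`; its first projection is the
Betti difference, Artin--Rees (`s31c77_hom_transfer`) + injectivity of the first projection
(`hpa1_fst_injective`) make it `p ^ (k - c)` times an element of the pair algebra; apply
`π ∘ hpa1_snd`.

* `tr34_aeval_ringHom`  : `f (aeval a q) = aeval (f a) q` for `q : ℤ[X]` and a ring hom `f`.
* `tr34_divisible`      : the pair algebra statement (`= hpa1_divisible` of the HeckePair1 header).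
* `tr34_transfer_poly`  : the transfer for arbitrary integer polynomials `P, P'`.
* `tr34_transfer`       : the Dickson form; its statement is, verbatim, the body of helper77's
                          `s31t77_TransferHyp S π p` (with `s31t77_D e j` unfolded to
                          `qpw_dickson (X : ℤ[X]) (C e) j`).
-/
import Mathlib
import Fermat.Agent.S30x.HeckePair1
import Fermat.Agent.S31x.ArtinRees77
import Fermat.Agent.S31x.StepA19
import Fermat.Agent.S42x.QuadPow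

set_option autoImplicit false

namespace Fermat.Agent.S31x

open Polynomial CuspForm ModularCurve Fermat.Agent.S41x Fermat.Agent.S42x Fermat.Agent.S30x

/-- ring homomorphisms commute with evaluation of integer polynomials (for arbitrary `ℤ`-algebra
structures, so that rewriting does not depend on the instance path). -/
theorem tr34_aeval_ringHom {A B : Type*} [Ring A] [Ring B] [Algebra ℤ A] [Algebra ℤ B]
    (f : A →+* B) (a : A) (q : ℤ[X]) : f (aeval a q) = aeval (f a) q := by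
  induction q using Polynomial.induction_on' with
  | add q r hq hr => rw [map_add, map_add, map_add, hq, hr]
  | monomial n z =>
    rw [aeval_monomial, aeval_monomial, map_mul, map_pow, eq_intCast, eq_intCast, map_intCast]

section Pair

variable (N : ℕ) [NeZero N] (S : Set ℕ)

/-- **Artin--Rees transfer in the pair algebra**: there is `c` such that an element of the pair
algebra whose Betti component maps `lrL N` into `p ^ m • lrL N` is `p ^ (m - c)` times an element of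
the pair algebra. -/
theorem tr34_divisible (p : ℕ) (hp : p ≠ 0) :
    ∃ c : ℕ, ∀ (m : ℕ) (t : hpa1_A N S),
      (∀ v : lrL N, ∃ w : lrL N, hpa1_fst N S t v = ((p : ℤ) ^ m) • w) →
      ∃ s : hpa1_A N S, t = (p : hpa1_A N S) ^ (m - c) * s := by
  obtain ⟨c, hc⟩ := s31c77_hom_transfer (hpa1_fst N S) p hp
  refine ⟨c, fun m t h => ?_⟩
  obtain ⟨s, hs⟩ := hc m t h
  exact ⟨s, hpa1_fst_injective N S hs⟩

/-- the transfer for arbitrary integer polynomials in two generators. -/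
theorem tr34_transfer_poly {T : Type*} [CommRing T] [IsLocalRing T]
    (π : heckeAlgebra N 2 S →+* T) (p : ℕ) (hp : p ≠ 0)
    (hpT : (p : T) ∈ IsLocalRing.maximalIdeal T) :
    ∃ c : ℕ, ∀ (k : ℕ) (ℓ ℓ' : hpa1_I N S) (P P' : ℤ[X]),
      (∀ v : lrL N, ∃ w : lrL N,
        (aeval (lrtT N ℓ.1) P - aeval (lrtT N ℓ'.1) P') v = ((p : ℤ) ^ k) • w) →
      aeval (π (heckeAlgebra.T ℓ.1.2 ℓ.2.2 ℓ.2.1)) P -
        aeval (π (heckeAlgebra.T ℓ'.1.2 ℓ'.2.2 ℓ'.2.1)) P' ∈
          IsLocalRing.maximalIdeal T ^ (k - c) := by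
  obtain ⟨c, hc⟩ := tr34_divisible N S p hp
  refine ⟨c, fun k ℓ ℓ' P P' h => ?_⟩
  set t : hpa1_A N S := aeval (hpa1_tau N S ℓ) P - aeval (hpa1_tau N S ℓ') P' with ht
  have hfst : hpa1_fst N S t = aeval (lrtT N ℓ.1) P - aeval (lrtT N ℓ'.1) P' := by
    rw [ht, map_sub, tr34_aeval_ringHom, tr34_aeval_ringHom, hpa1_fst_tau, hpa1_fst_tau]
  obtain ⟨s, hs⟩ := hc k t (fun v => by rw [hfst]; exact h v)
  have hsnd : (π.comp (hpa1_snd N S)) t =
      aeval (π (heckeAlgebra.T ℓ.1.2 ℓ.2.2 ℓ.2.1)) P -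
        aeval (π (heckeAlgebra.T ℓ'.1.2 ℓ'.2.2 ℓ'.2.1)) P' := by
    rw [ht, map_sub, tr34_aeval_ringHom, tr34_aeval_ringHom, RingHom.comp_apply,
      RingHom.comp_apply, hpa1_snd_tau, hpa1_snd_tau]
  rw [← hsnd, hs, map_mul, map_pow, map_natCast]
  exact Ideal.mul_mem_right _ _ (Ideal.pow_mem_pow hpT _)

end Pair

/-- **TRANSFER** (C2 + C3 + Dickson compatibility): verbatim the body of helper77's
`s31t77_TransferHyp S π p`. -/
theorem tr34_transfer {N : ℕ} [NeZero N] (S : Finset ℕ) {T : Type*} [CommRing T] [IsLocalRing T]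
    (π : heckeAlgebra N 2 (↑S : Set ℕ) →+* T) (p : ℕ) (hp : p ≠ 0)
    (hpT : (p : T) ∈ IsLocalRing.maximalIdeal T) :
    ∃ c : ℕ, ∀ (k : ℕ) (ℓ ℓ' : Nat.Primes) (hℓN : ¬ (ℓ : ℕ) ∣ N) (hℓS : (ℓ : ℕ) ∉ (↑S : Set ℕ))
      (hℓ'N : ¬ (ℓ' : ℕ) ∣ N) (hℓ'S : (ℓ' : ℕ) ∉ (↑S : Set ℕ)) (j j' : ℕ),
      (∀ v : lrL N, ∃ w : lrL N,
        (aeval (lrtT N ℓ) (qpw_dickson (X : ℤ[X]) (C (((ℓ : ℕ) : ℤ))) j) -
          aeval (lrtT N ℓ') (qpw_dickson (X : ℤ[X]) (C (((ℓ' : ℕ) : ℤ))) j')) v =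
            ((p : ℤ) ^ k) • w) →
      qpw_dickson (π (heckeAlgebra.T ℓ.2 hℓN hℓS)) (((ℓ : ℕ) : T)) j -
        qpw_dickson (π (heckeAlgebra.T ℓ'.2 hℓ'N hℓ'S)) (((ℓ' : ℕ) : T)) j' ∈
          IsLocalRing.maximalIdeal T ^ (k - c) := by
  obtain ⟨c, hc⟩ := tr34_transfer_poly N (↑S : Set ℕ) π p hp hpT
  refine ⟨c, fun k ℓ ℓ' hℓN hℓS hℓ'N hℓ'S j j' h => ?_⟩
  have h1 := hc k ⟨ℓ, hℓS, hℓN⟩ ⟨ℓ', hℓ'S, hℓ'N⟩ _ _ h
  rw [sa19_aeval_dickson_comm, sa19_aeval_dickson_comm, Int.cast_natCast, Int.cast_natCast] at h1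
  exact h1

end Fermat.Agent.S31x
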