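/-
S31 project (architect helper77), block TRANSFER, consumer form for TOP-A (helper34, prefix `tr34_`).

* `tr34_natCast_mem` : `(p : 𝒪) ∈ 𝔪_𝒪` and `algebraMap 𝒪 T` local  ⟹  `(p : T) ∈ 𝔪_T`.
* `tr34_transfer_datum` : the body of helper77's `s31t77_TransferHyp S H.π p` for a frozen
  `HeckeGaloisRepDatum`, from the hypotheses of S31 (`hp : p.Prime`, `hp𝒪`).
-/
import Mathlib
import Fermat.Prelude.Def_CuspForm_HeckeGaloisRepDatum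
import Fermat.Agent.S31x.Transfer34

set_option autoImplicit false

namespace Fermat.Agent.S31x

open Polynomial CuspForm ModularCurve Fermat.Agent.S41x Fermat.Agent.S42x Fermat.Agent.S30x

/-- a natural number in the maximal ideal of `𝒪` is in the maximal ideal of a local `𝒪`-algebra
with local structure map. -/
theorem tr34_natCast_mem {𝒪 T : Type*} [CommRing 𝒪] [IsLocalRing 𝒪] [CommRing T] [IsLocalRing T]
    [Algebra 𝒪 T] [IsLocalHom (algebraMap 𝒪 T)] (p : ℕ)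
    (hp𝒪 : (p : 𝒪) ∈ IsLocalRing.maximalIdeal 𝒪) : (p : T) ∈ IsLocalRing.maximalIdeal T := by
  rw [IsLocalRing.mem_maximalIdeal, mem_nonunits_iff] at hp𝒪 ⊢
  intro h
  apply hp𝒪
  have h2 : IsUnit (algebraMap 𝒪 T (p : 𝒪)) := by rwa [map_natCast]
  exact IsUnit.of_map (algebraMap 𝒪 T) _ h2

section Datum

variable {p : ℕ} {N : ℕ} [NeZero N] {S : Finset ℕ}
  {𝒪 : Type} [CommRing 𝒪] [IsDomain 𝒪] [IsDiscreteValuationRing 𝒪]
  [IsAdicComplete (IsLocalRing.maximalIdeal 𝒪) 𝒪]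
  {θ : CuspForm.heckeAlgebra N 2 (↑S : Set ℕ) →+* IsLocalRing.ResidueField 𝒪}
  {T : Type} [CommRing T] [IsLocalRing T] [IsNoetherianRing T]
  [IsAdicComplete (IsLocalRing.maximalIdeal T) T] [Algebra 𝒪 T] [IsLocalHom (algebraMap 𝒪 T)]
  [Module.Finite 𝒪 T] [Module.Free 𝒪 T]

/-- **TRANSFER for the frozen datum**: verbatim the body of `s31t77_TransferHyp S H.π p`. -/
theorem tr34_transfer_datum (hp : p.Prime) (hp𝒪 : (p : 𝒪) ∈ IsLocalRing.maximalIdeal 𝒪)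
    (H : CuspForm.HeckeGaloisRepDatum N (↑S : Set ℕ) 𝒪 θ T) :
    ∃ c : ℕ, ∀ (k : ℕ) (ℓ ℓ' : Nat.Primes) (hℓN : ¬ (ℓ : ℕ) ∣ N) (hℓS : (ℓ : ℕ) ∉ (↑S : Set ℕ))
      (hℓ'N : ¬ (ℓ' : ℕ) ∣ N) (hℓ'S : (ℓ' : ℕ) ∉ (↑S : Set ℕ)) (j j' : ℕ),
      (∀ v : lrL N, ∃ w : lrL N,
        (aeval (lrtT N ℓ) (qpw_dickson (X : ℤ[X]) (C (((ℓ : ℕ) : ℤ))) j) -
          aeval (lrtT N ℓ') (qpw_dickson (X : ℤ[X]) (C (((ℓ' : ℕ) : ℤ))) j')) v =
            ((p : ℤ) ^ k) • w) →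
      qpw_dickson (H.π (heckeAlgebra.T ℓ.2 hℓN hℓS)) (((ℓ : ℕ) : T)) j -
        qpw_dickson (H.π (heckeAlgebra.T ℓ'.2 hℓ'N hℓ'S)) (((ℓ' : ℕ) : T)) j' ∈
          IsLocalRing.maximalIdeal T ^ (k - c) :=
  tr34_transfer S H.π p hp.ne_zero (tr34_natCast_mem (𝒪 := 𝒪) p hp𝒪)

end Datum

end Fermat.Agent.S31x
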