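/-
S31 project (architect helper77), row E-PAIR (helper98, prefix `fe98_`).

Cyclic Frobenius density applied simultaneously to `g` and `g * σ` (`σ` in the inertia group at a
prime `q ∤ n`) over the field `F ⊇ L` of `fe98_exists_field`: both elements are powers of Frobenius
lifts on `F`, hence on `L`, on the `n`-torsion of `J₀(N)` and on the `n`-th roots of unity, which
gives the congruence `ℓ ^ j ≡ ℓ' ^ j' [MOD n]` (`fe98_density_pair`).  `fe98_density_pair_nat` is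
the same statement with `ℕ`-scalar torsion and, given that `σ` acts trivially on the `n`-torsion,
the equality `(φ ^ j) • x = (φ' ^ j') • x` on the `n`-torsion.
-/
import Mathlib
import Fermat.Agent.S31x.FieldE98
import Fermat.Agent.S41x.FDnDictFinal

set_option autoImplicit false

namespace Fermat.Agent.S31x

open Fermat.Agent.S42x Fermat.Agent.S41x ValuationSubring

local notation "Qbar" => AlgebraicClosure ℚ
local notation "GQ" => (AlgebraicClosure ℚ ≃ₐ[ℚ] AlgebraicClosure ℚ)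

/-- **E-PAIR**: density for the pair `(g, g * σ)`. -/
theorem fe98_density_pair (N n : ℕ) [NeZero n]
    (hfin : {x : ModularCurve.JZero N | (n : ℤ) • x = 0}.Finite)
    (L : IntermediateField ℚ Qbar) (hL : FiniteDimensional ℚ L) (M' : ℕ) (hM' : 0 < M')
    {q : ℕ} (hq : q.Prime) (hqn : ¬ q ∣ n) (P : ValuationSubring Qbar) (hP : P.LiesOverPrime q)
    (σ : GQ) (hσ : σ ∈ P.inertiaSubgroupIn ℚ) (g : GQ) :
    ∃ (ℓ : ℕ) (A : ValuationSubring Qbar) (φ : GQ) (j : ℕ)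
      (ℓ' : ℕ) (A' : ValuationSubring Qbar) (φ' : GQ) (j' : ℕ),
      (ℓ.Prime ∧ ¬ ℓ ∣ M' * n ∧ A.LiesOverPrime ℓ ∧ A.IsFrobeniusAt φ ℓ) ∧
      (ℓ'.Prime ∧ ¬ ℓ' ∣ M' * n ∧ A'.LiesOverPrime ℓ' ∧ A'.IsFrobeniusAt φ' ℓ') ∧
      (φ ^ j)⁻¹ * g ∈ L.fixingSubgroup ∧ (φ' ^ j')⁻¹ * (g * σ) ∈ L.fixingSubgroup ∧
      (∀ x : ModularCurve.JZero N, (n : ℤ) • x = 0 → g • x = (φ ^ j) • x) ∧
      (∀ x : ModularCurve.JZero N, (n : ℤ) • x = 0 → (g * σ) • x = (φ' ^ j') • x) ∧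
      ℓ ^ j ≡ ℓ' ^ j' [MOD n] := by
  obtain ⟨F, hF, hLF, hstab, hFJ, hFω⟩ := fe98_exists_field N n hfin L hL
  have hpos : 0 < M' * n := Nat.mul_pos hM' (Nat.pos_of_ne_zero (NeZero.ne n))
  obtain ⟨ℓ, A, φ, j, hℓ, hℓM, hA, hφ, hg⟩ := fdndi_exists_frobenius F hF hstab g (M' * n) hpos
  obtain ⟨ℓ', A', φ', j', hℓ', hℓ'M, hA', hφ', hgσ⟩ :=
    fdndi_exists_frobenius F hF hstab (g * σ) (M' * n) hpos
  have hℓn : ¬ ℓ ∣ n := fun h => hℓM (Dvd.dvd.mul_left h M')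
  have hℓ'n : ¬ ℓ' ∣ n := fun h => hℓ'M (Dvd.dvd.mul_left h M')
  have hle : F.fixingSubgroup ≤ L.fixingSubgroup := IntermediateField.fixingSubgroup_antitone hLF
  refine ⟨ℓ, A, φ, j, ℓ', A', φ', j', ⟨hℓ, hℓM, hA, hφ⟩, ⟨hℓ', hℓ'M, hA', hφ'⟩, ?_, ?_, ?_, ?_, ?_⟩
  · have h1 : (φ ^ j)⁻¹ * g = (g⁻¹ * φ ^ j)⁻¹ := by group
    rw [h1]
    exact hle (inv_mem hg)
  · have h1 : (φ' ^ j')⁻¹ * (g * σ) = ((g * σ)⁻¹ * φ' ^ j')⁻¹ := by group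
    rw [h1]
    exact hle (inv_mem hgσ)
  · intro x hx
    exact fe98_smul_eq_of_mem hFJ hg x hx
  · intro x hx
    exact fe98_smul_eq_of_mem hFJ hgσ x hx
  · exact fe98_pow_modEq hFω (fe98_omega0_inertia hq hqn P hP σ hσ) hℓ hℓn hℓ' hℓ'n A A' hA hA'
      φ φ' hφ hφ' j j' hg hgσ

/-- `ℕ`-scalar form, with the equality of the two Frobenius powers on the `n`-torsion when `σ` acts
trivially there (`esl_inertia_trivial`), and the congruence as a divisibility in `ℤ`. -/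
theorem fe98_density_pair_nat (N n : ℕ) [NeZero n]
    (hfin : {x : ModularCurve.JZero N | n • x = 0}.Finite)
    (L : IntermediateField ℚ Qbar) (hL : FiniteDimensional ℚ L) (M' : ℕ) (hM' : 0 < M')
    {q : ℕ} (hq : q.Prime) (hqn : ¬ q ∣ n) (P : ValuationSubring Qbar) (hP : P.LiesOverPrime q)
    (σ : GQ) (hσ : σ ∈ P.inertiaSubgroupIn ℚ)
    (hσJ : ∀ x : ModularCurve.JZero N, n • x = 0 → σ • x = x) (g : GQ) :
    ∃ (ℓ : ℕ) (A : ValuationSubring Qbar) (φ : GQ) (j : ℕ)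
      (ℓ' : ℕ) (A' : ValuationSubring Qbar) (φ' : GQ) (j' : ℕ),
      (ℓ.Prime ∧ ¬ ℓ ∣ M' * n ∧ A.LiesOverPrime ℓ ∧ A.IsFrobeniusAt φ ℓ) ∧
      (ℓ'.Prime ∧ ¬ ℓ' ∣ M' * n ∧ A'.LiesOverPrime ℓ' ∧ A'.IsFrobeniusAt φ' ℓ') ∧
      (φ ^ j)⁻¹ * g ∈ L.fixingSubgroup ∧ (φ' ^ j')⁻¹ * (g * σ) ∈ L.fixingSubgroup ∧
      (∀ x : ModularCurve.JZero N, n • x = 0 → g • x = (φ ^ j) • x) ∧
      (∀ x : ModularCurve.JZero N, n • x = 0 → (g * σ) • x = (φ' ^ j') • x) ∧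
      (∀ x : ModularCurve.JZero N, n • x = 0 → (φ ^ j) • x = (φ' ^ j') • x) ∧
      ℓ ^ j ≡ ℓ' ^ j' [MOD n] ∧ (n : ℤ) ∣ (ℓ : ℤ) ^ j - (ℓ' : ℤ) ^ j' := by
  have hset : {x : ModularCurve.JZero N | (n : ℤ) • x = 0} = {x | n • x = 0} := by
    ext x
    simp only [Set.mem_ofPred_eq, natCast_zsmul]
  obtain ⟨ℓ, A, φ, j, ℓ', A', φ', j', h1, h2, h3, h4, h5, h6, h7⟩ :=
    fe98_density_pair N n (hset ▸ hfin) L hL M' hM' hq hqn P hP σ hσ g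
  have h5' : ∀ x : ModularCurve.JZero N, n • x = 0 → g • x = (φ ^ j) • x :=
    fun x hx => h5 x (by rwa [natCast_zsmul])
  have h6' : ∀ x : ModularCurve.JZero N, n • x = 0 → (g * σ) • x = (φ' ^ j') • x :=
    fun x hx => h6 x (by rwa [natCast_zsmul])
  refine ⟨ℓ, A, φ, j, ℓ', A', φ', j', h1, h2, h3, h4, h5', h6', ?_, h7, ?_⟩
  · intro x hx
    rw [← h5' x hx, ← h6' x hx, mul_smul, hσJ x hx]
  · have h9 : (n : ℤ) ∣ ((ℓ ^ j : ℕ) : ℤ) - ((ℓ' ^ j' : ℕ) : ℤ) :=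
      (Nat.modEq_iff_dvd.mp h7.symm)
    push_cast at h9
    exact h9

end Fermat.Agent.S31x
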