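/-
S31 scouting (route doc `ROUTE_S31_helper77`), block S31-P1 : Dickson traces.  (helper77, prefix `s31p77_`.)
Mathlib + `S42x/QuadPow` (Mathlib only).

`Φ` an endomorphism of a finite free module of rank `2` over a commutative ring with characteristic
polynomial `X² - a X + d`:
* `s31p77_trace_of_charpoly` : `tr Φ = a`;
* `s31p77_quadratic`         : `Φ * Φ - a • Φ + d • 1 = 0` (Cayley–Hamilton);
* `s31p77_trace_pow`         : `tr (Φ ^ j) = qpw_dickson a d j`.
-/
import Mathlib
import Fermat.Agent.S42x.QuadPow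

set_option autoImplicit false

namespace Fermat.Agent.S31x

open Polynomial Fermat.Agent.S42x

variable {T V : Type*} [CommRing T] [AddCommGroup V] [Module T V] [Module.Free T V]
  [Module.Finite T V]

theorem s31p77_natDegree_quadratic [Nontrivial T] (a d : T) :
    (X ^ 2 - C a * X + C d : T[X]).natDegree = 2 := by
  have h1 : (C a * X : T[X]).natDegree < (X ^ 2 : T[X]).natDegree := by
    rw [natDegree_X_pow]
    exact lt_of_le_of_lt (natDegree_C_mul_le _ _) (by rw [natDegree_X]; norm_num)
  rw [natDegree_add_C, natDegree_sub_eq_left_of_natDegree_lt h1, natDegree_X_pow]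

theorem s31p77_trace_of_charpoly (Φ : Module.End T V) (a d : T)
    (hχ : Φ.charpoly = X ^ 2 - C a * X + C d) : LinearMap.trace T V Φ = a := by
  nontriviality T
  rw [LinearMap.trace_eq_matrix_trace T (Module.Free.chooseBasis T V),
    Matrix.trace_eq_neg_charpoly_nextCoeff, LinearMap.charpoly_toMatrix, hχ,
    nextCoeff_of_natDegree_pos (by rw [s31p77_natDegree_quadratic]; norm_num),
    s31p77_natDegree_quadratic]
  simp [coeff_X_pow, coeff_C]

theorem s31p77_quadratic (Φ : Module.End T V) (a d : T)
    (hχ : Φ.charpoly = X ^ 2 - C a * X + C d) :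
    Φ * Φ - a • Φ + d • (1 : Module.End T V) = 0 := by
  have h := LinearMap.aeval_self_charpoly Φ
  rw [hχ] at h
  simpa [pow_two, Algebra.smul_def] using h

omit [Module.Free T V] [Module.Finite T V] in
theorem s31p77_pow_succ_succ (Φ : Module.End T V) (a d : T)
    (h : Φ * Φ - a • Φ + d • (1 : Module.End T V) = 0) (j : ℕ) :
    Φ ^ (j + 2) = a • Φ ^ (j + 1) - d • Φ ^ j := by
  have h2 : Φ * Φ = a • Φ - d • (1 : Module.End T V) := by
    have h3 : Φ * Φ = -(d • (1 : Module.End T V)) + a • Φ := by
      rw [← sub_eq_zero]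
      rw [← h]; abel
    rw [h3]; abel
  rw [pow_succ' Φ (j + 1), pow_succ' Φ j, ← mul_assoc, h2, sub_mul, smul_mul_assoc,
    smul_mul_assoc, one_mul]

/-- **Dickson trace**: `tr (Φ ^ j) = D_j(a, d)`. -/
theorem s31p77_trace_pow (hrank : Module.finrank T V = 2) (Φ : Module.End T V) (a d : T)
    (hχ : Φ.charpoly = X ^ 2 - C a * X + C d) (j : ℕ) :
    LinearMap.trace T V (Φ ^ j) = qpw_dickson a d j := by
  have hq := s31p77_quadratic Φ a d hχ
  induction j using Nat.strong_induction_on with
  | _ j ih =>
    match j with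
    | 0 =>
      rw [pow_zero, LinearMap.trace_one, hrank, qpw_dickson_zero]
      norm_num
    | 1 => rw [pow_one, qpw_dickson_one, s31p77_trace_of_charpoly Φ a d hχ]
    | (j + 2) =>
      rw [s31p77_pow_succ_succ Φ a d hq j, map_sub, map_smul, map_smul, ih (j + 1) (by omega),
        ih j (by omega), qpw_dickson_succ_succ, smul_eq_mul, smul_eq_mul]

end Fermat.Agent.S31x
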