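/-
S31 project, leaf GLUE (helper94, prefix `glue94_`): small Prelude-level glue lemmas for TOP-A.

(i)   `glue94_natCast_mem`   : `(p : T) ∈ 𝔪_T` from `(p : 𝒪) ∈ 𝔪_𝒪` and `IsLocalHom (algebraMap 𝒪 T)`;
(ii)  `glue94_eq_zero_of_forall_mem_pow` : `(∀ n, x ∈ 𝔪_T ^ n) → x = 0` from `IsAdicComplete`;
      `glue94_eq_of_forall_sub_mem_pow`;
(iii) `glue94_cont` : the field `L` of `ρ.isAdicContinuous n` and `g = φ ^ j` on `L` give
      `ρ g v - (ρ φ) ^ j v ∈ 𝔪_T ^ n • ⊤`;  `glue94_cont_mul` (the form `g = φ ^ j` on `L` for `g * σ`);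
(iv)  `glue94_exists_level` : `∃ M' > 0, ∀ ℓ prime, ¬ ℓ ∣ M' → ℓ ∉ S ∧ ¬ ℓ ∣ N`;
(v)   `glue94_lrL_finite`, `glue94_lrL_free`.
-/
import Mathlib
import Fermat.Prelude.Def_GaloisRep_Adic
import Fermat.Agent.S41x.LatHomBase
import Fermat.Agent.S41x.LRBase

set_option autoImplicit false

namespace Fermat.Agent.S31x

open IsLocalRing

/-! ### (i) -/

theorem glue94_natCast_mem {𝒪 T : Type*} [CommRing 𝒪] [IsLocalRing 𝒪] [CommRing T] [IsLocalRing T]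
    [Algebra 𝒪 T] [IsLocalHom (algebraMap 𝒪 T)] {p : ℕ} (hp : (p : 𝒪) ∈ maximalIdeal 𝒪) :
    (p : T) ∈ maximalIdeal T := by
  have h := map_nonunit (algebraMap 𝒪 T) (p : 𝒪) hp
  rwa [map_natCast] at h

/-- the same for an arbitrary element -/
theorem glue94_algebraMap_mem {𝒪 T : Type*} [CommRing 𝒪] [IsLocalRing 𝒪] [CommRing T]
    [IsLocalRing T] [Algebra 𝒪 T] [IsLocalHom (algebraMap 𝒪 T)] {a : 𝒪}
    (ha : a ∈ maximalIdeal 𝒪) : algebraMap 𝒪 T a ∈ maximalIdeal T :=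
  map_nonunit (algebraMap 𝒪 T) a ha

/-! ### (ii) -/

theorem glue94_eq_zero_of_forall_mem_pow {T : Type*} [CommRing T] [IsLocalRing T]
    [IsAdicComplete (maximalIdeal T) T] (x : T) (hx : ∀ n : ℕ, x ∈ maximalIdeal T ^ n) : x = 0 := by
  apply IsHausdorff.haus (inferInstance : IsHausdorff (maximalIdeal T) T) x
  intro n
  rw [SModEq.zero, smul_eq_mul, Ideal.mul_top]
  exact hx n

theorem glue94_eq_of_forall_sub_mem_pow {T : Type*} [CommRing T] [IsLocalRing T]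
    [IsAdicComplete (maximalIdeal T) T] (x y : T) (h : ∀ n : ℕ, x - y ∈ maximalIdeal T ^ n) :
    x = y :=
  sub_eq_zero.mp (glue94_eq_zero_of_forall_mem_pow (x - y) h)

/-- module version: a finite module over a Noetherian complete local ring is separated is NOT
needed; this is the plain Hausdorff statement for a module which is assumed Hausdorff. -/
theorem glue94_eq_zero_of_forall_mem_smul {T V : Type*} [CommRing T] [IsLocalRing T]
    [AddCommGroup V] [Module T V] [IsHausdorff (maximalIdeal T) V] (v : V)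
    (hv : ∀ n : ℕ, v ∈ (maximalIdeal T ^ n) • (⊤ : Submodule T V)) : v = 0 := by
  apply IsHausdorff.haus (inferInstance : IsHausdorff (maximalIdeal T) V) v
  intro n
  rw [SModEq.zero]
  exact hv n

/-! ### (iii) -/

local notation "Qbar" => AlgebraicClosure ℚ

/-- a linear endomorphism preserves `I • ⊤`. -/
theorem glue94_map_mem_smul_top {T V : Type*} [CommRing T] [AddCommGroup V] [Module T V]
    (I : Ideal T) (f : Module.End T V) {v : V} (hv : v ∈ I • (⊤ : Submodule T V)) :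
    f v ∈ I • (⊤ : Submodule T V) := by
  have h1 : f v ∈ (I • (⊤ : Submodule T V)).map f := Submodule.mem_map_of_mem hv
  rw [Submodule.map_smul''] at h1
  exact Submodule.smul_mono le_rfl le_top h1

/-- **(iii)**: with `L` the finite-level field of `ρ` at depth `n`: if `g` and `φ ^ j` agree on `L`
then `ρ g ≡ (ρ φ) ^ j` modulo `𝔪 ^ n`. -/
theorem glue94_cont {T : Type} [CommRing T] [IsLocalRing T] (ρ : GaloisRepAdic T) (n : ℕ) :
    ∃ L : IntermediateField ℚ Qbar, FiniteDimensional ℚ L ∧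
      ∀ (g φ : Qbar ≃ₐ[ℚ] Qbar) (j : ℕ), (∀ a ∈ L, g a = (φ ^ j) a) →
        ∀ v : ρ.V, ρ.ρ g v - (ρ.ρ φ ^ j) v ∈ (maximalIdeal T ^ n) • (⊤ : Submodule T ρ.V) := by
  obtain ⟨L, hL, hcont⟩ := ρ.isAdicContinuous n
  refine ⟨L, hL, ?_⟩
  intro g φ j hg v
  have hτ : ∀ a ∈ L, ((φ ^ j)⁻¹ * g) a = a := by
    intro a ha
    rw [AlgEquiv.mul_apply, hg a ha, AlgEquiv.aut_inv, AlgEquiv.symm_apply_apply]
  have h1 := hcont ((φ ^ j)⁻¹ * g) hτ v
  have h2 : g = φ ^ j * ((φ ^ j)⁻¹ * g) := by group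
  have h3 : ρ.ρ g v - (ρ.ρ φ ^ j) v
      = ρ.ρ (φ ^ j) (ρ.ρ ((φ ^ j)⁻¹ * g) v - v) := by
    conv_lhs => rw [h2]
    rw [map_mul, Module.End.mul_apply, map_sub, map_pow]
  rw [h3]
  exact glue94_map_mem_smul_top _ _ h1

/-- a fixed finite-dimensional field can be adjoined to the field of `glue94_cont`
(any larger field works). -/
theorem glue94_cont_of_le {T : Type} [CommRing T] [IsLocalRing T] (ρ : GaloisRepAdic T) (n : ℕ)
    (L : IntermediateField ℚ Qbar)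
    (hL : ∀ σ : Qbar ≃ₐ[ℚ] Qbar, (∀ x ∈ L, σ x = x) →
      ∀ v : ρ.V, ρ.ρ σ v - v ∈ (maximalIdeal T ^ n) • (⊤ : Submodule T ρ.V))
    (L' : IntermediateField ℚ Qbar) (hLL' : L ≤ L')
    (g φ : Qbar ≃ₐ[ℚ] Qbar) (j : ℕ) (hg : ∀ a ∈ L', g a = (φ ^ j) a) (v : ρ.V) :
    ρ.ρ g v - (ρ.ρ φ ^ j) v ∈ (maximalIdeal T ^ n) • (⊤ : Submodule T ρ.V) := by
  have hτ : ∀ a ∈ L, ((φ ^ j)⁻¹ * g) a = a := by
    intro a ha
    rw [AlgEquiv.mul_apply, hg a (hLL' ha), AlgEquiv.aut_inv, AlgEquiv.symm_apply_apply]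
  have h1 := hL ((φ ^ j)⁻¹ * g) hτ v
  have h2 : g = φ ^ j * ((φ ^ j)⁻¹ * g) := by group
  have h3 : ρ.ρ g v - (ρ.ρ φ ^ j) v
      = ρ.ρ (φ ^ j) (ρ.ρ ((φ ^ j)⁻¹ * g) v - v) := by
    conv_lhs => rw [h2]
    rw [map_mul, Module.End.mul_apply, map_sub, map_pow]
  rw [h3]
  exact glue94_map_mem_smul_top _ _ h1

/-- endomorphism form of (iii): `ρ g - (ρ φ) ^ j` maps `V` into `𝔪 ^ n • V`. -/
theorem glue94_cont_end {T : Type} [CommRing T] [IsLocalRing T] (ρ : GaloisRepAdic T) (n : ℕ) :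
    ∃ L : IntermediateField ℚ Qbar, FiniteDimensional ℚ L ∧
      ∀ (g φ : Qbar ≃ₐ[ℚ] Qbar) (j : ℕ), (∀ a ∈ L, g a = (φ ^ j) a) →
        LinearMap.range (ρ.ρ g - ρ.ρ φ ^ j) ≤ (maximalIdeal T ^ n) • (⊤ : Submodule T ρ.V) := by
  obtain ⟨L, hL, h⟩ := glue94_cont ρ n
  refine ⟨L, hL, ?_⟩
  rintro g φ j hg _ ⟨v, rfl⟩
  rw [LinearMap.sub_apply]
  exact h g φ j hg v

/-! ### (iv) -/

theorem glue94_exists_level (S : Finset ℕ) (N : ℕ) (hN : 0 < N) :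
    ∃ M' : ℕ, 0 < M' ∧ ∀ ℓ : ℕ, ℓ.Prime → ¬ ℓ ∣ M' → ℓ ∉ S ∧ ¬ ℓ ∣ N := by
  classical
  refine ⟨N * ∏ s ∈ S, (if s = 0 then 1 else s), ?_, ?_⟩
  · apply Nat.mul_pos hN
    apply Finset.prod_pos
    intro s _
    split_ifs with h
    · exact Nat.one_pos
    · exact Nat.pos_of_ne_zero h
  · intro ℓ hℓ hndvd
    constructor
    · intro hℓS
      apply hndvd
      apply Dvd.dvd.mul_left
      have : (if ℓ = 0 then 1 else ℓ) ∣ ∏ s ∈ S, (if s = 0 then 1 else s) :=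
        Finset.dvd_prod_of_mem (fun s => if s = 0 then 1 else s) hℓS
      rwa [if_neg hℓ.ne_zero] at this
    · intro hℓN
      exact hndvd (Dvd.dvd.mul_right hℓN _)

/-- variant with an extra factor `m` (e.g. `m = p ^ k`): primes not dividing `M'` avoid `S`, `N`
and `m`. -/
theorem glue94_exists_level' (S : Finset ℕ) (N m : ℕ) (hN : 0 < N) (hm : 0 < m) :
    ∃ M' : ℕ, 0 < M' ∧ ∀ ℓ : ℕ, ℓ.Prime → ¬ ℓ ∣ M' → ℓ ∉ S ∧ ¬ ℓ ∣ N ∧ ¬ ℓ ∣ m := by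
  obtain ⟨M', hM', h⟩ := glue94_exists_level S (N * m) (Nat.mul_pos hN hm)
  refine ⟨M', hM', fun ℓ hℓ hnd => ?_⟩
  obtain ⟨h1, h2⟩ := h ℓ hℓ hnd
  exact ⟨h1, fun h3 => h2 (Dvd.dvd.mul_right h3 _), fun h3 => h2 (Dvd.dvd.mul_left h3 _)⟩

/-! ### (v) -/

open Fermat.Agent.S41x CongruenceSubgroup in
theorem glue94_lrL_finite (N : ℕ) [NeZero N] : Module.Finite ℤ (lrL N) :=
  lhb_finite_par (Γ := Gamma0 N)

open Fermat.Agent.S41x CongruenceSubgroup in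
theorem glue94_lrL_free (N : ℕ) [NeZero N] : Module.Free ℤ (lrL N) :=
  lhb_free_par (Γ := Gamma0 N)

end Fermat.Agent.S31x
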