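/-
S31 project (route `ROUTE_S31_helper77`), leaf S31-E + density instantiation (helper5), prefix
`s31e5_`.

For a modulus `m > 0` with `J₀(N)[m]` finite and a finite-dimensional subfield `L ⊆ Q̄`:

* `s31e5_exists_field` : a finite-dimensional Galois-stable field `E ⊇ L` such that `Gal(Q̄/E)` acts
  trivially on `J₀(N)[m]` and on the `m`-th roots of unity;
* `s31e5_density` : (B9, cyclic Frobenius density) every `g ∈ G_ℚ` agrees with a power `φ ^ j` of a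
  Frobenius lift at a prime `ℓ ∤ M' * m` on `L`, on `J₀(N)[m]` and on the `m`-th roots of unity,
  where it acts as `ζ ↦ ζ ^ (ℓ ^ j)`;
* `s31e5_pair` : the situation (A5) of the route: for `σ` in an inertia group at `q ∤ m` acting
  trivially on `J₀(N)[m]`, Frobenius data for `g` and for `g * σ` with the SAME action on
  `J₀(N)[m]` and `ℓ ^ j ≡ ℓ' ^ j' [MOD m]`.
-/
import Mathlib
import Fermat.Agent.S41x.FDnDictFinal
import Fermat.Agent.S41x.BridgeCyc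
import Fermat.Agent.S42x.FinLevel
import Fermat.Agent.S42x.FinOrbit
import Fermat.Agent.S42x.FinOmega
import Fermat.Agent.S42x.InertiaCyc

set_option autoImplicit false

namespace Fermat.Agent.S31x

open ModularCurve Fermat.Agent.S42x Fermat.Agent.S41x

local notation "Qb" => AlgebraicClosure ℚ
local notation "GQ" => (AlgebraicClosure ℚ ≃ₐ[ℚ] AlgebraicClosure ℚ)

/-! ### roots of unity -/

/-- an automorphism fixing a primitive `m`-th root of unity fixes every `m`-th root of unity. -/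
theorem s31e5_fix_roots {m : ℕ} [NeZero m] {ζ₀ : Qb} (hζ₀ : IsPrimitiveRoot ζ₀ m) (σ : GQ)
    (hσ : σ ζ₀ = ζ₀) {ζ : Qb} (hζ : ζ ^ m = 1) : σ ζ = ζ := by
  obtain ⟨k, -, rfl⟩ := hζ₀.eq_pow_of_pow_eq_one hζ
  rw [map_pow, hσ]

/-- a Frobenius lift at `ℓ ∤ m` raises every `m`-th root of unity to the `ℓ`-th power. -/
theorem s31e5_frob_root {m ℓ : ℕ} [NeZero m] (hℓ : ℓ.Prime) (hℓm : ¬ ℓ ∣ m)
    (A : ValuationSubring Qb) (hA : A.LiesOverPrime ℓ) (φ : GQ) (hφ : A.IsFrobeniusAt φ ℓ)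
    {ζ : Qb} (hζ : ζ ^ m = 1) : φ ζ = ζ ^ ℓ := by
  obtain ⟨ζ₀, hζ₀⟩ := fin_exists_primitiveRoot m
  obtain ⟨k, -, rfl⟩ := hζ₀.eq_pow_of_pow_eq_one hζ
  rw [map_pow, brcy_frobenius_apply_root hℓ hℓm A hA φ hφ hζ₀, ← pow_mul, ← pow_mul, mul_comm]

/-- powers of a Frobenius lift on roots of unity. -/
theorem s31e5_frob_pow_root {m ℓ : ℕ} [NeZero m] (hℓ : ℓ.Prime) (hℓm : ¬ ℓ ∣ m)
    (A : ValuationSubring Qb) (hA : A.LiesOverPrime ℓ) (φ : GQ) (hφ : A.IsFrobeniusAt φ ℓ)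
    (j : ℕ) {ζ : Qb} (hζ : ζ ^ m = 1) : (φ ^ j) ζ = ζ ^ (ℓ ^ j) := by
  induction j generalizing ζ with
  | zero => simp
  | succ j ih =>
    have h1 : (ζ ^ ℓ) ^ m = 1 := by rw [← pow_mul, mul_comm, pow_mul, hζ, one_pow]
    rw [pow_succ, AlgEquiv.mul_apply, s31e5_frob_root hℓ hℓm A hA φ hφ hζ, ih h1, ← pow_mul,
      pow_succ, mul_comm]

/-! ### the level field -/

/-- **S31-E**: a finite-dimensional Galois-stable subfield `E ⊇ L` of `Q̄` whose absolute Galois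
group acts trivially on `J₀(N)[m]` and on the `m`-th roots of unity. -/
theorem s31e5_exists_field (N : ℕ) (m : ℕ) (hm : 0 < m)
    (hfin : {x : JZero N | m • x = 0}.Finite)
    (L : IntermediateField ℚ Qb) (hL : FiniteDimensional ℚ L) :
    ∃ E : IntermediateField ℚ Qb, FiniteDimensional ℚ E ∧ L ≤ E ∧
      (∀ σ : GQ, ∀ a ∈ E, σ a ∈ E) ∧
      ∀ σ : GQ, (∀ a ∈ E, σ a = a) →
        (∀ x : JZero N, m • x = 0 → σ • x = x) ∧ (∀ ζ : Qb, ζ ^ m = 1 → σ ζ = ζ) := by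
  have : NeZero m := ⟨hm.ne'⟩
  have hfin' : {x : JZero N | (m : ℤ) • x = 0}.Finite := by
    refine hfin.subset fun x hx => ?_
    have hx' : (m : ℤ) • x = 0 := hx
    show m • x = 0
    rwa [natCast_zsmul] at hx'
  obtain ⟨L0, hL0fd, hL0⟩ := finl_stab_open_torsion N (m : ℤ) (by exact_mod_cast hm.ne') hfin'
  obtain ⟨ζ₀, hζ₀⟩ := fin_exists_primitiveRoot m
  have hint : IsIntegral ℚ ζ₀ := (hζ₀.isIntegral hm).tower_top
  have hLzfd : FiniteDimensional ℚ (IntermediateField.adjoin ℚ {ζ₀}) :=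
    IntermediateField.adjoin.finiteDimensional hint
  obtain ⟨E1, hE1fd, hLE1, hL0E1, -⟩ := fino_exists_stable L L0 hL hL0fd
  obtain ⟨E, hEfd, hE1E, hLzE, hstab⟩ :=
    fino_exists_stable E1 (IntermediateField.adjoin ℚ {ζ₀}) hE1fd hLzfd
  refine ⟨E, hEfd, hLE1.trans hE1E, hstab, fun σ hσ => ⟨fun x hx => ?_, fun ζ hζ => ?_⟩⟩
  · refine hL0 σ ?_ x (by rw [natCast_zsmul]; exact hx)
    rw [IntermediateField.mem_fixingSubgroup_iff]
    intro a ha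
    exact hσ a (hE1E (hL0E1 ha))
  · refine s31e5_fix_roots hζ₀ σ ?_ hζ
    exact hσ ζ₀ (hLzE (IntermediateField.mem_adjoin_simple_self ℚ ζ₀))

/-! ### the density instantiation -/

/-- **density at level `m`** (block B9 applied to the level field): every `g` agrees with a power of
a Frobenius lift at some `ℓ ∤ M' * m` on `L`, on `J₀(N)[m]` and on the `m`-th roots of unity. -/
theorem s31e5_density (N : ℕ) (m : ℕ) (hm : 0 < m)
    (hfin : {x : JZero N | m • x = 0}.Finite)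
    (L : IntermediateField ℚ Qb) (hL : FiniteDimensional ℚ L) (M' : ℕ) (hM' : 0 < M') (g : GQ) :
    ∃ (ℓ : ℕ) (A : ValuationSubring Qb) (φ : GQ) (j : ℕ), ℓ.Prime ∧ ¬ ℓ ∣ M' ∧ ¬ ℓ ∣ m ∧
      A.LiesOverPrime ℓ ∧ A.IsFrobeniusAt φ ℓ ∧
      (∀ a ∈ L, g a = (φ ^ j) a) ∧
      (∀ x : JZero N, m • x = 0 → g • x = (φ ^ j) • x) ∧
      (∀ ζ : Qb, ζ ^ m = 1 → g ζ = ζ ^ (ℓ ^ j)) := by
  have : NeZero m := ⟨hm.ne'⟩
  obtain ⟨E, hEfd, hLE, hstab, hE⟩ := s31e5_exists_field N m hm hfin L hL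
  obtain ⟨ℓ, A, φ, j, hℓ, hℓM, hA, hφ, hmem⟩ :=
    fdndi_exists_frobenius E hEfd hstab g (M' * m) (Nat.mul_pos hM' hm)
  have hℓM' : ¬ ℓ ∣ M' := fun h => hℓM (Dvd.dvd.mul_right h m)
  have hℓm : ¬ ℓ ∣ m := fun h => hℓM (Dvd.dvd.mul_left h M')
  rw [IntermediateField.mem_fixingSubgroup_iff] at hmem
  obtain ⟨hJ, hζ⟩ := hE (g⁻¹ * φ ^ j) hmem
  -- `g⁻¹ (φ^j a) = a` means `φ^j a = g a`
  have key : ∀ a : Qb, (g⁻¹ * φ ^ j) a = a → g a = (φ ^ j) a := by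
    intro a ha
    rw [AlgEquiv.mul_apply, AlgEquiv.aut_inv] at ha
    have := congrArg g ha
    rw [AlgEquiv.apply_symm_apply] at this
    exact this.symm
  refine ⟨ℓ, A, φ, j, hℓ, hℓM', hℓm, hA, hφ, fun a ha => key a (hmem a (hLE ha)),
    fun x hx => ?_, fun ζ hζ1 => ?_⟩
  · have h1 := hJ x hx
    rw [mul_smul] at h1
    have h2 := congrArg (fun y => g • y) h1
    simp only [smul_inv_smul] at h2
    exact h2.symm
  · rw [key ζ (hζ ζ hζ1)]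
    exact s31e5_frob_pow_root hℓ hℓm A hA φ hφ j hζ1

/-- **the pair of Frobenius data of step (A5)**: for `σ` in an inertia group at a prime `q ∤ m`
acting trivially on `J₀(N)[m]`, Frobenius data `(ℓ, φ, j)` for `g` and `(ℓ', φ', j')` for `g * σ`
(agreeing with them on `L`) with the same action on `J₀(N)[m]` and `ℓ ^ j ≡ ℓ' ^ j' [MOD m]`. -/
theorem s31e5_pair (N : ℕ) (m : ℕ) (hm : 0 < m)
    (hfin : {x : JZero N | m • x = 0}.Finite)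
    (L : IntermediateField ℚ Qb) (hL : FiniteDimensional ℚ L) (M' : ℕ) (hM' : 0 < M')
    (g σ : GQ) {q : ℕ} (hq : q.Prime) (hqm : ¬ q ∣ m) (Aq : ValuationSubring Qb)
    (hAq : Aq.LiesOverPrime q) (hσ : σ ∈ Aq.inertiaSubgroupIn ℚ)
    (hin : ∀ x : JZero N, m • x = 0 → σ • x = x) :
    ∃ (ℓ : ℕ) (A : ValuationSubring Qb) (φ : GQ) (j : ℕ)
      (ℓ' : ℕ) (A' : ValuationSubring Qb) (φ' : GQ) (j' : ℕ),
      (ℓ.Prime ∧ ¬ ℓ ∣ M' ∧ ¬ ℓ ∣ m ∧ A.LiesOverPrime ℓ ∧ A.IsFrobeniusAt φ ℓ) ∧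
      (ℓ'.Prime ∧ ¬ ℓ' ∣ M' ∧ ¬ ℓ' ∣ m ∧ A'.LiesOverPrime ℓ' ∧ A'.IsFrobeniusAt φ' ℓ') ∧
      (∀ a ∈ L, g a = (φ ^ j) a) ∧ (∀ a ∈ L, (g * σ) a = (φ' ^ j') a) ∧
      (∀ x : JZero N, m • x = 0 → (φ ^ j) • x = g • x ∧ (φ' ^ j') • x = g • x) ∧
      ℓ ^ j ≡ ℓ' ^ j' [MOD m] := by
  have : NeZero m := ⟨hm.ne'⟩
  obtain ⟨ℓ, A, φ, j, hℓ, hℓM, hℓm, hA, hφ, hL1, hJ1, hζ1⟩ :=
    s31e5_density N m hm hfin L hL M' hM' g
  obtain ⟨ℓ', A', φ', j', hℓ', hℓM', hℓm', hA', hφ', hL2, hJ2, hζ2⟩ :=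
    s31e5_density N m hm hfin L hL M' hM' (g * σ)
  refine ⟨ℓ, A, φ, j, ℓ', A', φ', j', ⟨hℓ, hℓM, hℓm, hA, hφ⟩, ⟨hℓ', hℓM', hℓm', hA', hφ'⟩,
    hL1, hL2, fun x hx => ⟨(hJ1 x hx).symm, ?_⟩, ?_⟩
  · rw [← hJ2 x hx, mul_smul, hin x hx]
  · obtain ⟨ζ₀, hζ₀⟩ := fin_exists_primitiveRoot m
    have h1 := hζ1 ζ₀ hζ₀.pow_eq_one
    have h2 := hζ2 ζ₀ hζ₀.pow_eq_one
    rw [AlgEquiv.mul_apply, icy_inertia_apply_root hq hqm Aq hAq σ hσ hζ₀.pow_eq_one, h1] at h2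
    exact (fin_pow_eq_pow_iff hζ₀).1 h2

end Fermat.Agent.S31x
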