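/-
S31x/StepB34 (helper34, S31 block P2 "Step B", core; prefix `sb34_`; Mathlib only).

`T` a local ring, `V` a finite free `T`-module, `ρ : G →* End_T V`.

* `sb34_eq_zero_of_trace_mul` : the trace form on `End_T V` is nondegenerate
                                (`∀ Y, tr (Y X) = 0 → X = 0`; matrix units);
* `sb34_eq_top_of_sup_smul`   : Nakayama for a submodule of a finite module over a local ring;
* `sb34_eq_zero_of_trace`     : if `span_T ρ(G) + 𝔪 End_T V = End_T V` and `tr (ρ g X) = 0` for all `g`
                                then `X = 0`;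
* `sb34_eq_one_of_trace`      : if moreover `tr ρ(g σ) = tr ρ(g)` for all `g` then `ρ σ = 1`
                                (Step B of `ROUTE_S31_helper77`).
The residual hypothesis `hres` is produced from absolute irreducibility in `S31x/StepBRes34`.
-/
import Mathlib

set_option autoImplicit false

namespace Fermat.Agent.S31x

open Submodule

section trace

variable {T V : Type*} [CommRing T] [AddCommGroup V] [Module T V] [Module.Free T V]
  [Module.Finite T V]

/-- the trace form on `End_T V` (`V` finite free) is nondegenerate. -/
theorem sb34_eq_zero_of_trace_mul (X : Module.End T V)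
    (h : ∀ Y : Module.End T V, LinearMap.trace T V (Y * X) = 0) : X = 0 := by
  classical
  let b := Module.Free.chooseBasis T V
  have hX : LinearMap.toMatrix b b X = 0 := by
    rw [Matrix.ext_iff_trace_mul_left]
    intro A
    have h1 := h (Matrix.toLin b b A)
    rw [LinearMap.trace_eq_matrix_trace T b, Module.End.mul_eq_comp, LinearMap.toMatrix_comp b b b,
      LinearMap.toMatrix_toLin] at h1
    rw [h1, Matrix.mul_zero, Matrix.trace_zero]
  have := congrArg (Matrix.toLin b b) hX
  rwa [Matrix.toLin_toMatrix, map_zero] at this

end trace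

section nakayama

variable {T E : Type*} [CommRing T] [IsLocalRing T] [AddCommGroup E] [Module T E] [Module.Finite T E]

/-- Nakayama: a submodule of a finite module over a local ring which is everything modulo the
maximal ideal is everything. -/
theorem sb34_eq_top_of_sup_smul (R : Submodule T E)
    (h : R ⊔ (IsLocalRing.maximalIdeal T • ⊤ : Submodule T E) = ⊤) : R = ⊤ := by
  rw [eq_top_iff]
  apply Submodule.le_of_le_smul_of_le_jacobson_bot (I := IsLocalRing.maximalIdeal T)
    Module.Finite.fg_top (IsLocalRing.maximalIdeal_le_jacobson ⊥)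
  rw [h]

end nakayama

section stepB

variable {T V : Type*} [CommRing T] [IsLocalRing T] [AddCommGroup V] [Module T V]
  [Module.Free T V] [Module.Finite T V] {G : Type*} [Group G]

/-- **Step B, core.**  If the `T`-span of `ρ(G)` is all of `End_T V` modulo the maximal ideal and
`X` is orthogonal to `ρ(G)` for the trace form, then `X = 0`. -/
theorem sb34_eq_zero_of_trace (ρ : G →* Module.End T V)
    (hres : span T (Set.range ρ) ⊔
      (IsLocalRing.maximalIdeal T • ⊤ : Submodule T (Module.End T V)) = ⊤)
    (X : Module.End T V) (hX : ∀ g : G, LinearMap.trace T V (ρ g * X) = 0) : X = 0 := by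
  have htop : span T (Set.range ρ) = ⊤ := sb34_eq_top_of_sup_smul _ hres
  apply sb34_eq_zero_of_trace_mul
  intro Y
  have hY : Y ∈ span T (Set.range ρ) := by rw [htop]; exact mem_top
  induction hY using Submodule.span_induction with
  | mem y hy =>
    obtain ⟨g, rfl⟩ := hy
    exact hX g
  | zero => rw [zero_mul, map_zero]
  | add y z _ _ hy hz => rw [add_mul, map_add, hy, hz, add_zero]
  | smul c y _ hy => rw [smul_mul_assoc, map_smul, hy, smul_zero]

/-- **Step B.**  If `tr ρ(g σ) = tr ρ(g)` for all `g`, then `ρ(σ) = 1`. -/
theorem sb34_eq_one_of_trace (ρ : G →* Module.End T V)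
    (hres : span T (Set.range ρ) ⊔
      (IsLocalRing.maximalIdeal T • ⊤ : Submodule T (Module.End T V)) = ⊤)
    (σ : G) (hσ : ∀ g : G, LinearMap.trace T V (ρ (g * σ)) = LinearMap.trace T V (ρ g)) :
    ρ σ = 1 := by
  have h0 : ρ σ - 1 = 0 := by
    apply sb34_eq_zero_of_trace ρ hres
    intro g
    rw [mul_sub, mul_one, map_sub, ← map_mul, hσ, sub_self]
  exact sub_eq_zero.mp h0

end stepB

end Fermat.Agent.S31x
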