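/-
S31x/StepBRes34 (helper34, S31 block P2 "Step B", parts (a)+(c); prefix `sbr34_`).

The residual hypothesis of `S31x/StepB34` from ABSOLUTE IRREDUCIBILITY of the residual
representation of a `GaloisRepAdic T` (`T` a local ring):

* `sbr34_isIrreducible`  : the elementary irreducibility of the Prelude (`ResidualGaloisRep.IsIrreducible`)
                           gives Mathlib's `Representation.IsIrreducible`;
* `sbr34_burnside`       : BURNSIDE: an irreducible finite-dimensional representation over an
                           algebraically closed field spans the endomorphism algebra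
                           (Schur `IsSimpleModule.algebraMap_end_bijective_of_isAlgClosed` +
                           Mathlib's `jacobson_density` for `K[G]` acting on `ρ.asModule`);
* `sbr34_span_eq_top_of_baseChange` : matrices `B g` over `k` whose base changes span `M_n(K)`
                           already span `M_n(k)` (dual functional argument);
* `sbr34_sup_smul_eq_top`: matrices `A g` over a local ring `T` whose reductions span `M_n(k)` span
                           `M_n(T)` modulo `𝔪`;
* `sbr34_hres`           : `span_T ρ(G) ⊔ 𝔪 • End_T V = ⊤` for `ρ : GaloisRepAdic T` with absolutely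
                           irreducible residual representation;
* `sbr34_eq_one_of_trace`: STEP B: `tr ρ(g σ) = tr ρ(g)` for all `g` ⟹ `ρ σ = 1`.
-/
import Mathlib
import Fermat.Prelude.Def_GaloisRep_Adic
import Fermat.Agent.S31x.StepB34

set_option autoImplicit false

namespace Fermat.Agent.S31x

open scoped MonoidAlgebra

section burnside

variable {K V G : Type*} [Field K] [AddCommGroup V] [Module K V] [Monoid G]

/-- irreducibility in the elementary form gives Mathlib's `Representation.IsIrreducible`. -/
theorem sbr34_isIrreducible [Nontrivial V] (ρ : Representation K G V)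
    (h : ∀ W : Submodule K V, (∀ g : G, ∀ x ∈ W, ρ g x ∈ W) → W = ⊥ ∨ W = ⊤) :
    ρ.IsIrreducible := by
  have hnt : Nontrivial (Subrepresentation ρ) := by
    refine ⟨⟨⊥, ⊤, fun hbt => ?_⟩⟩
    have h1 : (⊥ : Subrepresentation ρ).toSubmodule = (⊤ : Subrepresentation ρ).toSubmodule := by
      rw [hbt]
    exact bot_ne_top h1
  refine { exists_pair_ne := hnt.exists_pair_ne, eq_bot_or_eq_top := fun W' => ?_ }
  rcases h W'.toSubmodule (fun g x hx => W'.apply_mem_toSubmodule g hx) with h0 | h1
  · left
    exact Subrepresentation.toSubmodule_injective h0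
  · right
    exact Subrepresentation.toSubmodule_injective h1

/-- **Burnside.**  For an irreducible finite-dimensional representation over an algebraically
closed field, the linear span of the image is the whole endomorphism algebra. -/
theorem sbr34_burnside [IsAlgClosed K] [FiniteDimensional K V] (ρ : Representation K G V)
    [ρ.IsIrreducible] (f : V →ₗ[K] V) : f ∈ Submodule.span K (Set.range ρ) := by
  classical
  -- Schur
  have hschur : ∀ d : Module.End K[G] ρ.asModule, ∃ c : K, ∀ m : ρ.asModule, d m = c • m := by
    intro d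
    obtain ⟨c, hc⟩ := (IsSimpleModule.algebraMap_end_bijective_of_isAlgClosed
      (A := K[G]) (V := ρ.asModule) K).2 d
    refine ⟨c, fun m => ?_⟩
    rw [← hc]
    rfl
  let f' : Module.End (Module.End K[G] ρ.asModule) ρ.asModule :=
    { toFun := fun m => ρ.asModuleEquiv.symm (f (ρ.asModuleEquiv m))
      map_add' := fun x y => by simp only [map_add]
      map_smul' := fun d m => by
        obtain ⟨c, hc⟩ := hschur d
        simp only [RingHom.id_apply, Module.End.smul_def, hc, map_smul] }
  obtain ⟨s, hs⟩ := (Module.Finite.fg_top : (⊤ : Submodule K ρ.asModule).FG)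
  have hsimple : IsSimpleModule K[G] ρ.asModule :=
    (Representation.irreducible_iff_isSimpleModule_asModule ρ).mp inferInstance
  have hss : IsSemisimpleModule K[G] ρ.asModule :=
    @instIsSemisimpleModuleOfIsSimpleModule K[G] _ ρ.asModule _ _ hsimple
  obtain ⟨r, hr⟩ := jacobson_density (R := K[G]) (M := ρ.asModule) f' s
  have hall : ∀ m : ρ.asModule, f' m = r • m := by
    intro m
    have hm : m ∈ Submodule.span K (s : Set ρ.asModule) := by rw [hs]; trivial
    induction hm using Submodule.span_induction with
    | mem x hx => exact hr x hx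
    | zero => rw [map_zero, smul_zero]
    | add x y _ _ hx hy => rw [map_add, smul_add, hx, hy]
    | smul c x _ hx =>
      have h1 : f' (c • x) = c • f' x := by
        show ρ.asModuleEquiv.symm (f (ρ.asModuleEquiv (c • x))) =
          c • ρ.asModuleEquiv.symm (f (ρ.asModuleEquiv x))
        simp only [map_smul]
      rw [h1, hx, smul_comm]
  have hf : f = ρ.asAlgebraHom r := by
    ext v
    have h1 := hall (ρ.asModuleEquiv.symm v)
    have h2 : f' (ρ.asModuleEquiv.symm v) = ρ.asModuleEquiv.symm (f v) := by
      show ρ.asModuleEquiv.symm (f (ρ.asModuleEquiv (ρ.asModuleEquiv.symm v))) = _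
      rw [LinearEquiv.apply_symm_apply]
    rw [h2] at h1
    have h3 := congrArg ρ.asModuleEquiv h1
    rw [LinearEquiv.apply_symm_apply, Representation.asModuleEquiv_map_smul,
      LinearEquiv.apply_symm_apply] at h3
    exact h3
  rw [hf, Representation.asAlgebraHom_def, MonoidAlgebra.lift_apply]
  refine Submodule.sum_mem _ fun g _ => ?_
  exact Submodule.smul_mem _ _ (Submodule.subset_span ⟨g, rfl⟩)

end burnside


section descent

variable {k K ι G : Type*} [Field k] [Field K] [Algebra k K] [Fintype ι] [DecidableEq ι]

/-- a `k`-linear functional on matrices in terms of its values on the matrix units. -/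
theorem sbr34_functional_eq (ψ : Matrix ι ι k →ₗ[k] k) (B : Matrix ι ι k) :
    ψ B = ∑ i, ∑ j, B i j * ψ (Matrix.single i j 1) := by
  conv_lhs => rw [Matrix.matrix_eq_sum_single B]
  rw [map_sum]
  refine Finset.sum_congr rfl fun i _ => ?_
  rw [map_sum]
  refine Finset.sum_congr rfl fun j _ => ?_
  have h1 : Matrix.single i j (B i j) = B i j • Matrix.single i j (1 : k) := by
    rw [Matrix.smul_single, smul_eq_mul, mul_one]
  rw [h1, map_smul, smul_eq_mul]

/-- **descent of "the span is everything" along a field extension** (matrix form). -/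
theorem sbr34_span_eq_top_of_baseChange (B : G → Matrix ι ι k)
    (h : Submodule.span K (Set.range fun g => (B g).map (algebraMap k K)) = ⊤) :
    Submodule.span k (Set.range B) = ⊤ := by
  by_contra hne
  have hlt : Submodule.span k (Set.range B) < ⊤ := lt_top_iff_ne_top.mpr hne
  obtain ⟨ψ, hψ0, hψ⟩ := Submodule.exists_dual_map_eq_bot_of_lt_top hlt inferInstance
  let Ψ : Matrix ι ι K →ₗ[K] K :=
    ∑ i, ∑ j, (algebraMap k K (ψ (Matrix.single i j 1))) • (Matrix.entryLinearMap K K i j)
  have hΨ : ∀ N : Matrix ι ι K, Ψ N = ∑ i, ∑ j, algebraMap k K (ψ (Matrix.single i j 1)) * N i j := by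
    intro N
    simp only [Ψ, LinearMap.sum_apply, LinearMap.smul_apply, Matrix.entryLinearMap_apply,
      smul_eq_mul]
  have hkey : ∀ B' : Matrix ι ι k, Ψ (B'.map (algebraMap k K)) = algebraMap k K (ψ B') := by
    intro B'
    rw [hΨ, sbr34_functional_eq ψ B', map_sum]
    refine Finset.sum_congr rfl fun i _ => ?_
    rw [map_sum]
    refine Finset.sum_congr rfl fun j _ => ?_
    rw [map_mul, Matrix.map_apply, mul_comm]
  have hkill : ∀ g, Ψ ((B g).map (algebraMap k K)) = 0 := by
    intro g
    rw [hkey]
    have hmem : ψ (B g) ∈ (Submodule.span k (Set.range B)).map ψ :=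
      Submodule.mem_map_of_mem (Submodule.subset_span ⟨g, rfl⟩)
    rw [hψ, Submodule.mem_bot] at hmem
    rw [hmem, map_zero]
  have hΨ0 : ∀ N : Matrix ι ι K, Ψ N = 0 := by
    intro N
    have hN : N ∈ Submodule.span K (Set.range fun g => (B g).map (algebraMap k K)) := by
      rw [h]; trivial
    induction hN using Submodule.span_induction with
    | mem x hx =>
      obtain ⟨g, rfl⟩ := hx
      exact hkill g
    | zero => rw [map_zero]
    | add x y _ _ hx hy => rw [map_add, hx, hy, add_zero]
    | smul c x _ hx => rw [map_smul, hx, smul_zero]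
  apply hψ0
  apply LinearMap.ext
  intro B'
  rw [sbr34_functional_eq ψ B', LinearMap.zero_apply]
  refine Finset.sum_eq_zero fun i _ => Finset.sum_eq_zero fun j _ => ?_
  have h1 := hΨ0 ((Matrix.single i j (1 : k)).map (algebraMap k K))
  rw [hkey] at h1
  have h2 : ψ (Matrix.single i j 1) = 0 :=
    (map_eq_zero_iff _ (algebraMap k K).injective).mp h1
  rw [h2, mul_zero]

end descent

section local_ring

open IsLocalRing

variable {T ι G : Type*} [CommRing T] [IsLocalRing T] [Fintype ι] [DecidableEq ι]

/-- a matrix with entries in the maximal ideal lies in `𝔪 • ⊤`. -/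
theorem sbr34_mem_smul_top (X : Matrix ι ι T)
    (hX : X.map (algebraMap T (ResidueField T)) = 0) :
    X ∈ (maximalIdeal T • ⊤ : Submodule T (Matrix ι ι T)) := by
  rw [Matrix.matrix_eq_sum_single X]
  refine Submodule.sum_mem _ fun i _ => Submodule.sum_mem _ fun j _ => ?_
  have h1 : Matrix.single i j (X i j) = X i j • Matrix.single i j (1 : T) := by
    rw [Matrix.smul_single, smul_eq_mul, mul_one]
  rw [h1]
  refine Submodule.smul_mem_smul ?_ Submodule.mem_top
  have h2 := congrFun (congrFun hX i) j
  rw [Matrix.map_apply, Matrix.zero_apply, ResidueField.algebraMap_eq,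
    residue_eq_zero_iff] at h2
  exact h2

omit [Fintype ι] [DecidableEq ι] in
theorem sbr34_exists_lift (Y : Matrix ι ι (ResidueField T)) :
    ∃ X : Matrix ι ι T, X.map (algebraMap T (ResidueField T)) = Y := by
  refine ⟨Y.map (Function.surjInv (residue_surjective (R := T))), ?_⟩
  ext i j
  rw [Matrix.map_apply, Matrix.map_apply, ResidueField.algebraMap_eq]
  exact Function.surjInv_eq _ _

/-- **from the residue field to `T`**: if the reductions of the `A g` span all matrices over the
residue field, then the `A g` span all matrices over `T` modulo `𝔪`. -/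
theorem sbr34_sup_smul_eq_top (A : G → Matrix ι ι T)
    (h : Submodule.span (ResidueField T)
      (Set.range fun g => (A g).map (algebraMap T (ResidueField T))) = ⊤) :
    Submodule.span T (Set.range A) ⊔ (maximalIdeal T • ⊤ : Submodule T (Matrix ι ι T)) = ⊤ := by
  set S : Submodule T (Matrix ι ι T) := Submodule.span T (Set.range A) ⊔ maximalIdeal T • ⊤ with hS
  have hker : ∀ X : Matrix ι ι T, X.map (algebraMap T (ResidueField T)) = 0 → X ∈ S :=
    fun X hX => Submodule.mem_sup_right (sbr34_mem_smul_top X hX)
  have hgen : ∀ g, A g ∈ S := fun g => Submodule.mem_sup_left (Submodule.subset_span ⟨g, rfl⟩)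
  have hmapsub : ∀ X Y : Matrix ι ι T, (X - Y).map (algebraMap T (ResidueField T)) =
      X.map (algebraMap T (ResidueField T)) - Y.map (algebraMap T (ResidueField T)) := by
    intro X Y
    ext i j
    simp
  have key : ∀ Y ∈ Submodule.span (ResidueField T)
      (Set.range fun g => (A g).map (algebraMap T (ResidueField T))),
      ∀ X : Matrix ι ι T, X.map (algebraMap T (ResidueField T)) = Y → X ∈ S := by
    intro Y hY
    induction hY using Submodule.span_induction with
    | mem y hy =>
      obtain ⟨g, rfl⟩ := hy
      intro X hX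
      have h1 : X = A g + (X - A g) := by abel
      rw [h1]
      refine S.add_mem (hgen g) (hker _ ?_)
      rw [hmapsub, hX, sub_self]
    | zero => exact fun X hX => hker X hX
    | add y z _ _ hy hz =>
      intro X hX
      obtain ⟨X1, hX1⟩ := sbr34_exists_lift (T := T) y
      have h1 : X = X1 + (X - X1) := by abel
      rw [h1]
      refine S.add_mem (hy X1 hX1) (hz _ ?_)
      rw [hmapsub, hX, hX1, add_sub_cancel_left]
    | smul c y _ hy =>
      intro X hX
      obtain ⟨X1, hX1⟩ := sbr34_exists_lift (T := T) y
      obtain ⟨c', rfl⟩ := residue_surjective c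
      have h1 : X = c' • X1 + (X - c' • X1) := by abel
      rw [h1]
      refine S.add_mem (S.smul_mem c' (hy X1 hX1)) (hker _ ?_)
      have h2 : (c' • X1).map (algebraMap T (ResidueField T)) =
          residue T c' • X1.map (algebraMap T (ResidueField T)) := by
        ext i j
        rw [Matrix.map_apply, Matrix.smul_apply, Matrix.smul_apply, Matrix.map_apply, smul_eq_mul,
          smul_eq_mul, map_mul]
        rfl
      rw [hmapsub, hX, ← hX1, h2, sub_self]
  rw [eq_top_iff]
  intro X _
  exact key _ (by rw [h]; trivial) X rfl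

end local_ring


section assembly

open IsLocalRing TensorProduct

variable {T : Type} [CommRing T] [IsLocalRing T]

/-- **the residual hypothesis of Step B from absolute irreducibility.** -/
theorem sbr34_hres (ρ : GaloisRepAdic T) (h : ρ.residual.IsAbsolutelyIrreducible) :
    Submodule.span T (Set.range ρ.ρ) ⊔
      (maximalIdeal T • ⊤ : Submodule T (Module.End T ρ.V)) = ⊤ := by
  classical
  set k := ResidueField T with hk
  set K := AlgebraicClosure k with hK
  -- the representation over `K`
  let R2 := ρ.residual.baseChange K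
  have hfr : Module.finrank K R2.V = 2 := R2.finrank_eq
  have hnt : Nontrivial R2.V := Module.nontrivial_of_finrank_pos (R := K) (by rw [hfr]; norm_num)
  have hirr : Representation.IsIrreducible (k := K) (G := AlgebraicClosure ℚ ≃ₐ[ℚ] AlgebraicClosure ℚ)
      (V := R2.V) R2.ρ := sbr34_isIrreducible _ h
  -- bases
  let b := Module.Free.chooseBasis T ρ.V
  let bk := Algebra.TensorProduct.basis k b
  let bK := Algebra.TensorProduct.basis K bk
  let A : (AlgebraicClosure ℚ ≃ₐ[ℚ] AlgebraicClosure ℚ) → Matrix _ _ T :=
    fun σ => LinearMap.toMatrix b b (ρ.ρ σ)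
  have hmat : ∀ σ, LinearMap.toMatrix bK bK (R2.ρ σ) =
      ((A σ).map (algebraMap T k)).map (algebraMap k K) := by
    intro σ
    show LinearMap.toMatrix bK bK (((ρ.ρ σ).baseChange k).baseChange K) = _
    rw [LinearMap.toMatrix_baseChange, LinearMap.toMatrix_baseChange]
  -- Burnside in matrix form
  have hspanK : Submodule.span K (Set.range fun σ =>
      ((A σ).map (algebraMap T k)).map (algebraMap k K)) = ⊤ := by
    rw [eq_top_iff]
    intro N _
    have h1 := sbr34_burnside (K := K) (V := R2.V) R2.ρ (Matrix.toLin bK bK N)
    have h2 := Submodule.apply_mem_span_image_of_mem_span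
      (LinearMap.toMatrix bK bK).toLinearMap h1
    have h3 : (LinearMap.toMatrix bK bK).toLinearMap (Matrix.toLin bK bK N) = N :=
      LinearMap.toMatrix_toLin bK bK N
    rw [h3] at h2
    refine Submodule.span_mono ?_ h2
    rintro _ ⟨_, ⟨σ, rfl⟩, rfl⟩
    exact ⟨σ, (hmat σ).symm⟩
  have hspank := sbr34_span_eq_top_of_baseChange (K := K)
    (fun σ => (A σ).map (algebraMap T k)) hspanK
  have hT := sbr34_sup_smul_eq_top A hspank
  -- back to endomorphisms
  let e : Module.End T ρ.V ≃ₗ[T] Matrix _ _ T := LinearMap.toMatrix b b
  have hmap : (Submodule.span T (Set.range ρ.ρ) ⊔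
      (maximalIdeal T • ⊤ : Submodule T (Module.End T ρ.V))).map e.toLinearMap = ⊤ := by
    rw [Submodule.map_sup, Submodule.map_span, Submodule.map_smul'', Submodule.map_top,
      LinearEquiv.range, ← hT]
    congr 2
    ext N
    constructor
    · rintro ⟨_, ⟨σ, rfl⟩, rfl⟩
      exact ⟨σ, rfl⟩
    · rintro ⟨σ, rfl⟩
      exact ⟨_, ⟨σ, rfl⟩, rfl⟩
  have := congrArg (Submodule.comap e.toLinearMap) hmap
  rwa [Submodule.comap_map_eq_of_injective e.injective, Submodule.comap_top] at this

/-- **Step B for a `GaloisRepAdic`.**  Absolutely irreducible residual representation and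
`tr ρ(g σ) = tr ρ(g)` for all `g` imply `ρ(σ) = 1`. -/
theorem sbr34_eq_one_of_trace (ρ : GaloisRepAdic T) (h : ρ.residual.IsAbsolutelyIrreducible)
    (σ : AlgebraicClosure ℚ ≃ₐ[ℚ] AlgebraicClosure ℚ)
    (hσ : ∀ g, LinearMap.trace T ρ.V (ρ.ρ (g * σ)) = LinearMap.trace T ρ.V (ρ.ρ g)) :
    ρ.ρ σ = 1 :=
  sb34_eq_one_of_trace ρ.ρ (sbr34_hres ρ h) σ hσ

end assembly


end Fermat.Agent.S31x
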