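/-
S31 project, block P2 = STEP B (helper29, prefix `trg29_`).  Mathlib + `qd86_burnside`.

`T` a local ring, `V` a finite free `T`-module, `ρ : G →* End_T V` a representation whose
reduction to the algebraic closure `k̄` of the residue field `k` is irreducible.  Then the `T`-span
of `ρ(G)` is all of `End_T V` (Burnside over `k̄`, descent `k̄ → k` by trace duality, Nakayama),
hence an endomorphism `X` with `tr (ρ g ∘ X) = 0` for all `g` vanishes (the trace form on `End` of
a finite free module is nondegenerate).  Consequently: `tr ρ (g σ) = tr ρ g` for all `g` forces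
`ρ σ = 1`.

* `trg29_eq_zero_of_forall_trace` : nondegeneracy of the trace form;
* `trg29_exists_trace_rep`        : every functional on `End` is `Y ↦ tr (Y X)`;
* `trg29_mem_span_closed`         : Burnside, span form (alg. closed field);
* `trg29_span_eq_top_field`       : descent to `k`;
* `trg29_span_eq_top_local`       : Nakayama, `T`-span of `ρ(G)` is `End_T V`;
* `trg29_eq_zero_of_trace_local`, `trg29_rho_eq_one`.
-/
import Mathlib
import Fermat.Agent.S42x.QuadRepB86
import Fermat.Prelude.Def_GaloisRep_Adic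

set_option autoImplicit false

namespace Fermat.Agent.S31x

open scoped TensorProduct
open Fermat.Agent.S42x

noncomputable section

/-! ### (1) the trace form on `End` of a finite free module -/

theorem trg29_eq_zero_of_forall_trace {R M : Type*} [CommRing R] [AddCommGroup M] [Module R M]
    [Module.Free R M] [Module.Finite R M] (X : Module.End R M)
    (h : ∀ Y : Module.End R M, LinearMap.trace R M (Y * X) = 0) : X = 0 := by
  classical
  let b := Module.Free.chooseBasis R M
  have hm : LinearMap.toMatrix b b X = 0 := by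
    apply Matrix.ext_iff_trace_mul_left.mpr
    intro x
    have h1 := h (Matrix.toLin b b x)
    rw [LinearMap.trace_eq_matrix_trace R b, LinearMap.toMatrix_mul, LinearMap.toMatrix_toLin] at h1
    rw [h1, Matrix.mul_zero, Matrix.trace_zero]
  exact (LinearMap.toMatrix b b).injective (by rw [hm, map_zero])

/-- decomposition of an endomorphism along the matrix units of a basis. -/
theorem trg29_eq_sum_units {R M ι : Type*} [CommRing R] [AddCommGroup M] [Module R M]
    [Fintype ι] [DecidableEq ι] (b : Module.Basis ι R M) (Y : Module.End R M) :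
    Y = ∑ i, ∑ j, (LinearMap.toMatrix b b Y i j) • Matrix.toLin b b (Matrix.single i j (1 : R)) := by
  have h1 : Y = Matrix.toLin b b (LinearMap.toMatrix b b Y) := (Matrix.toLin_toMatrix b b Y).symm
  conv_lhs => rw [h1, Matrix.matrix_eq_sum_single (LinearMap.toMatrix b b Y)]
  rw [map_sum]
  refine Finset.sum_congr rfl fun i _ => ?_
  rw [map_sum]
  refine Finset.sum_congr rfl fun j _ => ?_
  rw [← map_smul]
  congr 1
  rw [Matrix.smul_single, smul_eq_mul, mul_one]

theorem trg29_exists_trace_rep {R M : Type*} [CommRing R] [AddCommGroup M] [Module R M]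
    [Module.Free R M] [Module.Finite R M] (φ : Module.End R M →ₗ[R] R) :
    ∃ X : Module.End R M, ∀ Y : Module.End R M, φ Y = LinearMap.trace R M (Y * X) := by
  classical
  let b := Module.Free.chooseBasis R M
  let Xm : Matrix _ _ R := Matrix.of fun j i => φ (Matrix.toLin b b (Matrix.single i j (1 : R)))
  refine ⟨Matrix.toLin b b Xm, fun Y => ?_⟩
  rw [LinearMap.trace_eq_matrix_trace R b, LinearMap.toMatrix_mul, LinearMap.toMatrix_toLin]
  conv_lhs => rw [trg29_eq_sum_units b Y]
  simp only [map_sum, map_smul, smul_eq_mul, Matrix.trace, Matrix.diag, Matrix.mul_apply]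
  rfl

/-! ### (2) Burnside over an algebraically closed field, span form -/

section closed

variable {K : Type} [Field K] [IsAlgClosed K] {V : Type} [AddCommGroup V] [Module K V]
  [FiniteDimensional K V] {G : Type} [Monoid G] (r : G →* Module.End K V)

omit [IsAlgClosed K] [FiniteDimensional K V] in
theorem trg29_adjoin_eq_span :
    Subalgebra.toSubmodule (Algebra.adjoin K (Set.range r)) = Submodule.span K (Set.range r) := by
  rw [Algebra.adjoin_eq_span, ← MonoidHom.coe_mrange, Submonoid.closure_eq]

theorem trg29_mem_span_closed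
    (hirr : ∀ W : Submodule K V, (∀ g, ∀ x ∈ W, r g x ∈ W) → W = ⊥ ∨ W = ⊤)
    (f : Module.End K V) : f ∈ Submodule.span K (Set.range r) := by
  rcases subsingleton_or_nontrivial V with hV | hV
  · have : f = 0 := LinearMap.ext fun x => Subsingleton.elim _ _
    rw [this]
    exact Submodule.zero_mem _
  let S : Subalgebra K (Module.End K V) := Algebra.adjoin K (Set.range r)
  have hsimple : IsSimpleModule S V := by
    have hnt : Nontrivial (Submodule S V) := Submodule.nontrivial_iff S |>.mpr hV
    have hso : IsSimpleOrder (Submodule S V) := by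
      refine { toNontrivial := hnt, eq_bot_or_eq_top := fun W => ?_ }
      have hW := hirr (W.restrictScalars K) (fun g x hx => by
        have : (⟨r g, Algebra.subset_adjoin ⟨g, rfl⟩⟩ : S) • x ∈ W := W.smul_mem _ hx
        exact this)
      rcases hW with h | h
      · left
        exact (Submodule.restrictScalars_eq_bot_iff K S V).mp h
      · right
        exact (Submodule.restrictScalars_eq_top_iff K S V).mp h
    exact { toIsSimpleOrder := hso }
  have hsimple' : IsSimpleModule S (⊤ : Submodule S V) :=
    IsSimpleModule.congr (Submodule.topEquiv : (⊤ : Submodule S V) ≃ₗ[S] V)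
  let f' : (⊤ : Submodule S V) →ₗ[K] (⊤ : Submodule S V) :=
    { toFun := fun u => ⟨f u.1, trivial⟩
      map_add' := fun u v => by
        apply Subtype.ext
        show f (u.1 + v.1) = f u.1 + f v.1
        exact map_add f _ _
      map_smul' := fun c u => by
        apply Subtype.ext
        show f (c • u.1) = c • f u.1
        exact map_smul f _ _ }
  obtain ⟨a, ha⟩ := qd86_burnside (K := K) (A := S) (⊤ : Submodule S V) f'
  have hfa : f = (a : Module.End K V) := by
    ext v
    have := congrArg Subtype.val (ha ⟨v, trivial⟩)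
    exact this.symm
  rw [hfa, ← trg29_adjoin_eq_span]
  exact a.2

theorem trg29_eq_zero_of_trace_closed
    (hirr : ∀ W : Submodule K V, (∀ g, ∀ x ∈ W, r g x ∈ W) → W = ⊥ ∨ W = ⊤)
    (X : Module.End K V) (hX : ∀ g, LinearMap.trace K V (r g * X) = 0) : X = 0 := by
  apply trg29_eq_zero_of_forall_trace
  intro Y
  have hY := trg29_mem_span_closed r hirr Y
  induction hY using Submodule.span_induction with
  | mem y hy =>
    obtain ⟨g, rfl⟩ := hy
    exact hX g
  | zero => rw [zero_mul, map_zero]
  | add a b _ _ ha hb => rw [add_mul, map_add, ha, hb, add_zero]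
  | smul c a _ ha => rw [smul_mul_assoc, map_smul, ha, smul_zero]

end closed

/-! ### (3) descent from `k̄` to `k` -/

section field

variable {k : Type} [Field k] (kbar : Type) [Field kbar] [Algebra k kbar] [IsAlgClosed kbar]
  {U : Type} [AddCommGroup U] [Module k U] [FiniteDimensional k U] {G : Type} [Monoid G]
  (r : G →* Module.End k U)

/-- base change of a representation. -/
def trg29_bc {A : Type} [CommRing A] (B : Type) [CommRing B] [Algebra A B] {M : Type}
    [AddCommGroup M] [Module A M] {G : Type} [Monoid G] (r : G →* Module.End A M) :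
    G →* Module.End B (B ⊗[A] M) where
  toFun g := (r g).baseChange B
  map_one' := by rw [map_one, LinearMap.baseChange_one]
  map_mul' g h := by rw [map_mul, LinearMap.baseChange_mul]

@[simp] theorem trg29_bc_apply {A : Type} [CommRing A] (B : Type) [CommRing B] [Algebra A B]
    {M : Type} [AddCommGroup M] [Module A M] {G : Type} [Monoid G] (r : G →* Module.End A M)
    (g : G) : trg29_bc B r g = (r g).baseChange B := rfl

omit [IsAlgClosed kbar] in
theorem trg29_baseChange_injective (X : Module.End k U) (h : X.baseChange kbar = 0) : X = 0 := by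
  classical
  let b := Module.Free.chooseBasis k U
  have h1 := LinearMap.toMatrix_baseChange kbar X b b
  rw [h, map_zero] at h1
  have h2 : LinearMap.toMatrix b b X = 0 := by
    ext i j
    have := congrFun (congrFun h1 i) j
    rw [Matrix.map_apply, Matrix.zero_apply] at this
    rw [Matrix.zero_apply]
    exact (map_eq_zero (algebraMap k kbar)).mp this.symm
  exact (LinearMap.toMatrix b b).injective (by rw [h2, map_zero])

theorem trg29_eq_zero_of_trace_field
    (hirr : ∀ W : Submodule kbar (kbar ⊗[k] U),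
      (∀ g, ∀ x ∈ W, (r g).baseChange kbar x ∈ W) → W = ⊥ ∨ W = ⊤)
    (X : Module.End k U) (hX : ∀ g, LinearMap.trace k U (r g * X) = 0) : X = 0 := by
  apply trg29_baseChange_injective kbar
  apply trg29_eq_zero_of_trace_closed (trg29_bc kbar r) hirr
  intro g
  rw [trg29_bc_apply, ← LinearMap.baseChange_mul, LinearMap.trace_baseChange, hX g, map_zero]

theorem trg29_span_eq_top_field
    (hirr : ∀ W : Submodule kbar (kbar ⊗[k] U),
      (∀ g, ∀ x ∈ W, (r g).baseChange kbar x ∈ W) → W = ⊥ ∨ W = ⊤) :
    Submodule.span k (Set.range r) = ⊤ := by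
  by_contra hne
  obtain ⟨φ, hφ0, hφ⟩ := Submodule.exists_le_ker_of_lt_top _ (lt_top_iff_ne_top.mpr hne)
  obtain ⟨X, hXφ⟩ := trg29_exists_trace_rep φ
  have hX0 : X = 0 := trg29_eq_zero_of_trace_field kbar r hirr X (fun g => by
    rw [← hXφ]
    exact hφ (Submodule.subset_span ⟨g, rfl⟩))
  apply hφ0
  ext Y
  rw [hXφ, hX0, mul_zero, map_zero]
  rfl

end field

/-! ### (4) the local ring: Nakayama -/

section local_ring

variable {T : Type} [CommRing T] [IsLocalRing T] {V : Type} [AddCommGroup V] [Module T V]
  [Module.Free T V] [Module.Finite T V] {G : Type} [Monoid G] (ρ : G →* Module.End T V)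

local notation "𝕜" => IsLocalRing.ResidueField T

theorem trg29_mem_smul_top_of_baseChange_eq_zero (Z : Module.End T V)
    (h : Z.baseChange 𝕜 = 0) :
    Z ∈ (IsLocalRing.maximalIdeal T • ⊤ : Submodule T (Module.End T V)) := by
  classical
  let b := Module.Free.chooseBasis T V
  have h1 := LinearMap.toMatrix_baseChange 𝕜 Z b b
  rw [h, map_zero] at h1
  have h2 : ∀ i j, LinearMap.toMatrix b b Z i j ∈ IsLocalRing.maximalIdeal T := by
    intro i j
    have := congrFun (congrFun h1 i) j
    rw [Matrix.map_apply, Matrix.zero_apply, IsLocalRing.ResidueField.algebraMap_eq] at this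
    exact (IsLocalRing.residue_eq_zero_iff _).mp this.symm
  rw [trg29_eq_sum_units b Z]
  exact Submodule.sum_mem _ fun i _ => Submodule.sum_mem _ fun j _ =>
    Submodule.smul_mem_smul (h2 i j) trivial

theorem trg29_span_eq_top_local
    (hirr : ∀ W : Submodule (AlgebraicClosure 𝕜) (AlgebraicClosure 𝕜 ⊗[𝕜] (𝕜 ⊗[T] V)),
      (∀ g, ∀ x ∈ W, ((ρ g).baseChange 𝕜).baseChange (AlgebraicClosure 𝕜) x ∈ W) →
        W = ⊥ ∨ W = ⊤) :
    Submodule.span T (Set.range ρ) = ⊤ := by
  have hk : Submodule.span 𝕜 (Set.range (trg29_bc 𝕜 ρ)) = ⊤ :=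
    trg29_span_eq_top_field (AlgebraicClosure 𝕜) (trg29_bc 𝕜 ρ) hirr
  rw [eq_top_iff]
  apply Submodule.le_of_le_smul_of_le_jacobson_bot (I := IsLocalRing.maximalIdeal T)
    Module.Finite.fg_top (IsLocalRing.maximalIdeal_le_jacobson ⊥)
  rintro Y -
  have hlift : ∀ Yb ∈ Submodule.span 𝕜 (Set.range (trg29_bc 𝕜 ρ)),
      ∃ Z ∈ Submodule.span T (Set.range ρ), Z.baseChange 𝕜 = Yb := by
    intro Yb hYb
    induction hYb using Submodule.span_induction with
    | mem y hy =>
      obtain ⟨g, rfl⟩ := hy
      exact ⟨ρ g, Submodule.subset_span ⟨g, rfl⟩, rfl⟩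
    | zero => exact ⟨0, Submodule.zero_mem _, LinearMap.baseChange_zero⟩
    | add a b _ _ ha hb =>
      obtain ⟨Za, hZa, rfl⟩ := ha
      obtain ⟨Zb, hZb, rfl⟩ := hb
      exact ⟨Za + Zb, Submodule.add_mem _ hZa hZb, LinearMap.baseChange_add _ _⟩
    | smul c a _ ha =>
      obtain ⟨Za, hZa, rfl⟩ := ha
      obtain ⟨t, rfl⟩ := IsLocalRing.residue_surjective c
      refine ⟨t • Za, Submodule.smul_mem _ _ hZa, ?_⟩
      rw [LinearMap.baseChange_smul]
      ext x
      simp only [TensorProduct.AlgebraTensorModule.curry_apply, LinearMap.restrictScalars_apply,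
        TensorProduct.curry_apply, LinearMap.smul_apply, LinearMap.baseChange_tmul]
      rw [TensorProduct.smul_tmul', TensorProduct.smul_tmul', Algebra.smul_def,
        IsLocalRing.ResidueField.algebraMap_eq, smul_eq_mul]
  obtain ⟨Z, hZ, hZY⟩ := hlift (Y.baseChange 𝕜) (by rw [hk]; trivial)
  have hd : (Y - Z).baseChange 𝕜 = 0 := by
    rw [LinearMap.baseChange_sub]
    exact sub_eq_zero.mpr hZY.symm
  have hm := trg29_mem_smul_top_of_baseChange_eq_zero (Y - Z) hd
  have hYZ : Y = Z + (Y - Z) := by abel
  rw [hYZ]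
  exact Submodule.add_mem_sup hZ hm

/-- **STEP B, trace form.** -/
theorem trg29_eq_zero_of_trace_local
    (hirr : ∀ W : Submodule (AlgebraicClosure 𝕜) (AlgebraicClosure 𝕜 ⊗[𝕜] (𝕜 ⊗[T] V)),
      (∀ g, ∀ x ∈ W, ((ρ g).baseChange 𝕜).baseChange (AlgebraicClosure 𝕜) x ∈ W) →
        W = ⊥ ∨ W = ⊤)
    (X : Module.End T V) (hX : ∀ g, LinearMap.trace T V (ρ g * X) = 0) : X = 0 := by
  apply trg29_eq_zero_of_forall_trace
  intro Y
  have hY : Y ∈ Submodule.span T (Set.range ρ) := by
    rw [trg29_span_eq_top_local ρ hirr]; trivial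
  induction hY using Submodule.span_induction with
  | mem y hy =>
    obtain ⟨g, rfl⟩ := hy
    exact hX g
  | zero => rw [zero_mul, map_zero]
  | add a b _ _ ha hb => rw [add_mul, map_add, ha, hb, add_zero]
  | smul c a _ ha => rw [smul_mul_assoc, map_smul, ha, smul_zero]

/-- **STEP B.** if multiplying by `σ` does not change any trace then `ρ σ = 1`. -/
theorem trg29_rho_eq_one
    (hirr : ∀ W : Submodule (AlgebraicClosure 𝕜) (AlgebraicClosure 𝕜 ⊗[𝕜] (𝕜 ⊗[T] V)),
      (∀ g, ∀ x ∈ W, ((ρ g).baseChange 𝕜).baseChange (AlgebraicClosure 𝕜) x ∈ W) →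
        W = ⊥ ∨ W = ⊤)
    (σ : G) (hσ : ∀ g, LinearMap.trace T V (ρ (g * σ)) = LinearMap.trace T V (ρ g)) :
    ρ σ = 1 := by
  have h := trg29_eq_zero_of_trace_local ρ hirr (ρ σ - 1) (fun g => by
    rw [mul_sub, mul_one, map_sub, ← map_mul, hσ g, sub_self])
  exact sub_eq_zero.mp h

end local_ring

/-! ### (5) the `GaloisRepAdic` form consumed by S31 -/

/-- **STEP B for `GaloisRepAdic`**: residually absolutely irreducible, and right multiplication by
`σ` does not change any trace; then `ρ σ = 1`. -/
theorem trg29_galoisRepAdic_eq_one {T : Type} [CommRing T] [IsLocalRing T] (ρ : GaloisRepAdic T)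
    (hirr : ρ.residual.IsAbsolutelyIrreducible)
    (σ : AlgebraicClosure ℚ ≃ₐ[ℚ] AlgebraicClosure ℚ)
    (hσ : ∀ g : AlgebraicClosure ℚ ≃ₐ[ℚ] AlgebraicClosure ℚ, ρ.trace (g * σ) = ρ.trace g) :
    ρ.ρ σ = 1 :=
  trg29_rho_eq_one ρ.ρ hirr σ hσ

/-- the `T`-span of the image of a residually absolutely irreducible `GaloisRepAdic` is `End`. -/
theorem trg29_galoisRepAdic_span_eq_top {T : Type} [CommRing T] [IsLocalRing T]
    (ρ : GaloisRepAdic T) (hirr : ρ.residual.IsAbsolutelyIrreducible) :
    Submodule.span T (Set.range ρ.ρ) = ⊤ :=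
  trg29_span_eq_top_local ρ.ρ hirr

end

end Fermat.Agent.S31x
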