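/-
S31 project (architect helper77), junction C2 + C3 (TRANSFER), twin of helper71's `tr71_`
(helper40, prefix `trf40_`).

`trf40_transfer` : LITERALLY (up to unfolding `s31t77_D e j := qpw_dickson X (C e) j`) the body of
`s31t77_TransferHyp S π p` of `S31x/StepATop77.lean`, for any ring homomorphism
`π : heckeAlgebra N 2 S →+* T` into a local ring `T` with `(p : T) ∈ 𝔪_T`, `p ≠ 0`:

there is `c` such that whenever the Betti Dickson difference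
`D_j(T^B_ℓ, ℓ) - D_{j'}(T^B_{ℓ'}, ℓ')` maps `lrL N` into `p^k • lrL N`, the Dickson difference of the
`π(T_ℓ)` lies in `𝔪_T ^ (k - c)`.

Proof: helper1's pair algebra `hpa1_A N S` (commutative, `hpa1_fst` injective = Betti → forms
transfer) + helper77's Artin–Rees `s31c77_hom_transfer` + helper19's Dickson bridges `sa19_`.
The algebra is done for an abstract pair algebra first (`trf40_abs`).
-/
import Mathlib
import Fermat.Agent.S31x.StepA19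
import Fermat.Agent.S31x.ArtinRees77
import Fermat.Agent.S30x.HeckePair1

set_option autoImplicit false

namespace Fermat.Agent.S31x

open Polynomial CuspForm ModularCurve Fermat.Agent.S41x Fermat.Agent.S42x Fermat.Agent.S30x

/-- **abstract TRANSFER**: a commutative ring `A` acting faithfully on a finite free `ℤ`-module `L`
through `fst`, a second ring homomorphism `snd : A → H`, `π : H → T`, an ideal `I ∋ p` of `T`.
(The values of `fst`, `π ∘ snd` and the casts are passed through explicit equalities so that the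
instantiation needs no rewriting.) -/
theorem trf40_abs {A : Type*} [CommRing A] {L : Type*} [AddCommGroup L] [Module.Finite ℤ L]
    [Module.Free ℤ L] {H : Type*} [NonAssocSemiring H] {T : Type*} [CommRing T]
    (fst : A →+* Module.End ℤ L) (hinj : Function.Injective fst) (snd : A →+* H) (π : H →+* T)
    (I : Ideal T) (p : ℕ) (hp0 : p ≠ 0) (hpI : (p : T) ∈ I) :
    ∃ c : ℕ, ∀ (k : ℕ) (a a' : A) (e e' : ℤ) (j j' : ℕ) (x x' : Module.End ℤ L) (b b' E E' : T),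
      fst a = x → fst a' = x' → π (snd a) = b → π (snd a') = b' → (e : T) = E → (e' : T) = E' →
      (∀ v : L, ∃ w : L,
        (aeval x (qpw_dickson (X : ℤ[X]) (C e) j) -
          aeval x' (qpw_dickson (X : ℤ[X]) (C e') j')) v = ((p : ℤ) ^ k) • w) →
      qpw_dickson b E j - qpw_dickson b' E' j' ∈ I ^ (k - c) := by
  obtain ⟨c, hc⟩ := s31c77_hom_transfer fst p hp0
  refine ⟨c, fun k a a' e e' j j' x x' b b' E E' hx hx' hb hb' hE hE' h => ?_⟩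
  subst hx hx' hb hb' hE hE'
  set t : A := sa19_dk a e j - sa19_dk a' e' j' with ht
  have h1 : ∀ v : L, ∃ w : L, fst t v = ((p : ℤ) ^ k) • w := by
    intro v
    obtain ⟨w, hw⟩ := h v
    refine ⟨w, ?_⟩
    rw [ht, map_sub, sa19_dk_map, sa19_dk_map, ← hw, sa19_aeval_dickson, sa19_aeval_dickson]
  obtain ⟨s, hs⟩ := hc k t h1
  have h2 : t = (p : A) ^ (k - c) * s := hinj hs
  have h3 : (π.comp snd) t =
      qpw_dickson (π (snd a)) (e : T) j - qpw_dickson (π (snd a')) (e' : T) j' := by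
    rw [ht, map_sub, sa19_dk_map, sa19_dk_map, sa19_dk_eq_qpw, sa19_dk_eq_qpw]
    rfl
  rw [← h3, h2, map_mul, map_pow, map_natCast]
  exact Ideal.mul_mem_right _ _ (Ideal.pow_mem_pow hpI _)

/-- **TRANSFER (C2 + C3)**: the body of `s31t77_TransferHyp S π p`. -/
theorem trf40_transfer {N : ℕ} [NeZero N] (S : Finset ℕ) {T : Type} [CommRing T] [IsLocalRing T]
    (π : heckeAlgebra N 2 (↑S : Set ℕ) →+* T) (p : ℕ) (hp0 : p ≠ 0)
    (hpT : (p : T) ∈ IsLocalRing.maximalIdeal T) :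
    ∃ c : ℕ, ∀ (k : ℕ) (ℓ ℓ' : Nat.Primes) (hℓN : ¬ (ℓ : ℕ) ∣ N) (hℓS : (ℓ : ℕ) ∉ (↑S : Set ℕ))
      (hℓ'N : ¬ (ℓ' : ℕ) ∣ N) (hℓ'S : (ℓ' : ℕ) ∉ (↑S : Set ℕ)) (j j' : ℕ),
      (∀ v : lrL N, ∃ w : lrL N,
        (aeval (lrtT N ℓ) (qpw_dickson (X : ℤ[X]) (C (((ℓ : ℕ) : ℤ))) j) -
          aeval (lrtT N ℓ') (qpw_dickson (X : ℤ[X]) (C (((ℓ' : ℕ) : ℤ))) j')) v =
            ((p : ℤ) ^ k) • w) →
      qpw_dickson (π (heckeAlgebra.T ℓ.2 hℓN hℓS)) (((ℓ : ℕ) : T)) j -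
        qpw_dickson (π (heckeAlgebra.T ℓ'.2 hℓ'N hℓ'S)) (((ℓ' : ℕ) : T)) j' ∈
          IsLocalRing.maximalIdeal T ^ (k - c) := by
  obtain ⟨c, hc⟩ := trf40_abs (hpa1_fst N (↑S : Set ℕ)) (hpa1_fst_injective N (↑S : Set ℕ))
    (hpa1_snd N (↑S : Set ℕ)) π (IsLocalRing.maximalIdeal T) p hp0 hpT
  refine ⟨c, fun k ℓ ℓ' hℓN hℓS hℓ'N hℓ'S j j' h => ?_⟩
  exact hc k (hpa1_tau N (↑S : Set ℕ) ⟨ℓ, hℓS, hℓN⟩) (hpa1_tau N (↑S : Set ℕ) ⟨ℓ', hℓ'S, hℓ'N⟩)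
    (((ℓ : ℕ) : ℤ)) (((ℓ' : ℕ) : ℤ)) j j' (lrtT N ℓ) (lrtT N ℓ')
    (π (heckeAlgebra.T ℓ.2 hℓN hℓS)) (π (heckeAlgebra.T ℓ'.2 hℓ'N hℓ'S)) ((ℓ : ℕ) : T) ((ℓ' : ℕ) : T)
    (hpa1_fst_tau N (↑S : Set ℕ) ⟨ℓ, hℓS, hℓN⟩) (hpa1_fst_tau N (↑S : Set ℕ) ⟨ℓ', hℓ'S, hℓ'N⟩)
    (congrArg π (hpa1_snd_tau N (↑S : Set ℕ) ⟨ℓ, hℓS, hℓN⟩))
    (congrArg π (hpa1_snd_tau N (↑S : Set ℕ) ⟨ℓ', hℓ'S, hℓ'N⟩))
    (Int.cast_natCast _) (Int.cast_natCast _) h

end Fermat.Agent.S31x
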